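import Fermat.Agent.LocalTorsion.Denominator
import Mathlib.NumberTheory.NumberField.Completion.FinitePlace
import Mathlib.RingTheory.Localization.Module

/-!
# Cassels's theorem over a number field

A torsion point on a Weierstrass equation with integral coefficients over a number field of degree
`d` is integral unless its order is `p ^ (k + 1)` with `p ^ k (p - 1) ≤ d`; in that case
`p ^ 2 x ^ n` and `p ^ 3 y ^ n` are integral, `n = p ^ k (p - 1)`.
-/

set_option autoImplicit false
set_option linter.unusedSectionVars false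
set_option linter.style.haveILetI false

noncomputable section

open WeierstrassCurve FA.EC FA.Local IsDedekindDomain NumberField
open scoped Classical

namespace FA.LocalTorsion

variable {K : Type*} [Field K] [NumberField K]

theorem adicAbv_le_one_of_isIntegral {z : K} (hz : IsIntegral ℤ z)
    (v : HeightOneSpectrum (𝓞 K)) : HeightOneSpectrum.adicAbv K v z ≤ 1 :=
  IsDedekindDomain.HeightOneSpectrum.adicAbv_coe_le_one v _ (⟨z, hz⟩ : 𝓞 K)

theorem isIntegral_of_adicAbv {z : K}
    (h : ∀ v : HeightOneSpectrum (𝓞 K), HeightOneSpectrum.adicAbv K v z ≤ 1) :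
    IsIntegral ℤ z := by
  obtain ⟨r, hr⟩ := HeightOneSpectrum.mem_integers_of_valuation_le_one (R := 𝓞 K) K z fun v => by
    have h' := h v
    rw [HeightOneSpectrum.adicAbv_def] at h'
    exact (WithZeroMulInt.toNNReal_le_one_iff
      (HeightOneSpectrum.one_lt_absNorm_nnreal v)).1 (by exact_mod_cast h')
  exact hr ▸ r.2

/-- The powers of an element up to the degree are dependent over `ℤ`. -/
theorem exists_int_relation (z : K) :
    ∃ g : Fin (Module.finrank ℚ K + 1) → ℤ,
      ∑ i, (g i : K) * z ^ (i : ℕ) = 0 ∧ ∃ i, g i ≠ 0 := by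
  obtain ⟨g, hg, hi⟩ := Fintype.not_linearIndependent_iff.1 fun h :
      LinearIndependent ℤ (fun i : Fin (Module.finrank ℚ K + 1) => z ^ (i : ℕ)) => by
    have := ((LinearIndependent.iff_fractionRing ℤ ℚ).1 h).fintype_card_le_finrank
    rw [Fintype.card_fin] at this
    omega
  simp only [zsmul_eq_mul] at hg
  exact ⟨g, hg, hi⟩

/-- The coefficients are algebraic integers. -/
structure IntegralEquation (W : WeierstrassCurve K) : Prop where
  h₁ : IsIntegral ℤ W.a₁
  h₂ : IsIntegral ℤ W.a₂
  h₃ : IsIntegral ℤ W.a₃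
  h₄ : IsIntegral ℤ W.a₄
  h₆ : IsIntegral ℤ W.a₆

theorem isUltrametric_adicAbv (v : HeightOneSpectrum (𝓞 K)) :
    letI := (HeightOneSpectrum.adicAbv K v).toNormedField
    IsUltrametricDist K := by
  letI := (HeightOneSpectrum.adicAbv K v).toNormedField
  exact IsUltrametricDist.isUltrametricDist_of_isNonarchimedean_norm
    (HeightOneSpectrum.isNonarchimedean_adicAbv K v)

variable {W : WeierstrassCurve K}

theorem intCoeff_adicAbv (hW : IntegralEquation W) (v : HeightOneSpectrum (𝓞 K)) :
    letI := (HeightOneSpectrum.adicAbv K v).toNormedField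
    haveI := isUltrametric_adicAbv v
    IntCoeff (NormedField.valuation (K := K)) W.toAffine := by
  letI := (HeightOneSpectrum.adicAbv K v).toNormedField
  haveI := isUltrametric_adicAbv v
  exact ⟨adicAbv_le_one_of_isIntegral hW.h₁ v, adicAbv_le_one_of_isIntegral hW.h₂ v,
    adicAbv_le_one_of_isIntegral hW.h₃ v, adicAbv_le_one_of_isIntegral hW.h₄ v,
    adicAbv_le_one_of_isIntegral hW.h₆ v⟩

variable [W.IsElliptic] (hW : IntegralEquation W) {x y : K} (h : W.toAffine.Nonsingular x y)
include hW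

/-- **Orders which are no prime powers.** -/
theorem isIntegral_of_not_primePow (hfin : IsOfFinAddOrder (Affine.Point.some x y h))
    (hm : ¬ IsPrimePow (addOrderOf (Affine.Point.some x y h))) :
    IsIntegral ℤ x ∧ IsIntegral ℤ y := by
  have key : ∀ v : HeightOneSpectrum (𝓞 K),
      HeightOneSpectrum.adicAbv K v x ≤ 1 ∧ HeightOneSpectrum.adicAbv K v y ≤ 1 := fun v => by
    letI := (HeightOneSpectrum.adicAbv K v).toNormedField
    haveI := isUltrametric_adicAbv v
    exact norm_le_one_of_not_primePow (intCoeff_adicAbv hW v) h hfin hm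
  exact ⟨isIntegral_of_adicAbv fun v => (key v).1, isIntegral_of_adicAbv fun v => (key v).2⟩

/-- **The denominators of points of prime power order.** -/
theorem isIntegral_cleared {p k : ℕ} [hp : Fact p.Prime]
    (hord : addOrderOf (Affine.Point.some x y h) = p ^ (k + 1)) :
    IsIntegral ℤ ((p : K) ^ 2 * x ^ (p ^ k * (p - 1))) ∧
      IsIntegral ℤ ((p : K) ^ 3 * y ^ (p ^ k * (p - 1))) := by
  have key : ∀ v : HeightOneSpectrum (𝓞 K),
      HeightOneSpectrum.adicAbv K v ((p : K) ^ 2 * x ^ (p ^ k * (p - 1))) ≤ 1 ∧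
      HeightOneSpectrum.adicAbv K v ((p : K) ^ 3 * y ^ (p ^ k * (p - 1))) ≤ 1 := fun v => by
    letI := (HeightOneSpectrum.adicAbv K v).toNormedField
    haveI := isUltrametric_adicAbv v
    exact norm_cleared_le_one (intCoeff_adicAbv hW v) h hord
  exact ⟨isIntegral_of_adicAbv fun v => (key v).1, isIntegral_of_adicAbv fun v => (key v).2⟩

/-- **The possible orders of points which are not integral.** -/
theorem order_of_not_isIntegral (hfin : IsOfFinAddOrder (Affine.Point.some x y h))
    (hxy : ¬ (IsIntegral ℤ x ∧ IsIntegral ℤ y)) :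
    ∃ p k : ℕ, p.Prime ∧ addOrderOf (Affine.Point.some x y h) = p ^ (k + 1) ∧
      p ^ k * (p - 1) ≤ Module.finrank ℚ K := by
  obtain ⟨v, hv⟩ : ∃ v : HeightOneSpectrum (𝓞 K), 1 < HeightOneSpectrum.adicAbv K v x := by
    by_contra hall
    push Not at hall
    refine hxy ⟨isIntegral_of_adicAbv hall, isIntegral_of_adicAbv fun v => ?_⟩
    letI := (HeightOneSpectrum.adicAbv K v).toNormedField
    haveI := isUltrametric_adicAbv v
    exact (FA.LocalPts.norm_snd_le (intCoeff_adicAbv hW v) h.1 le_rfl (hall v)).trans_eq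
      (one_pow 2)
  have hd : 0 < Module.finrank ℚ K := Module.finrank_pos
  have hdep := exists_int_relation (K := K)
  have hchar : CharZero K := inferInstance
  letI := (HeightOneSpectrum.adicAbv K v).toNormedField
  haveI := isUltrametric_adicAbv v
  exact @le_degree_of_one_lt K _ _ hchar _ hd hdep W _ (intCoeff_adicAbv hW v) x y h hv hfin

omit hW in
/-- The slope at a point whose double is affine. -/
theorem exists_slope {F : Type*} [Field F] [DecidableEq F] (h2F : (2 : F) ≠ 0) {a b x y x₂ y₂ : F}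
    {h : (⟨0, 0, 0, a, b⟩ : WeierstrassCurve F).toAffine.Nonsingular x y}
    {h₂ : (⟨0, 0, 0, a, b⟩ : WeierstrassCurve F).toAffine.Nonsingular x₂ y₂}
    (hd : 2 • Affine.Point.some x y h = Affine.Point.some x₂ y₂ h₂) :
    ∃ l : F, l ^ 2 = x₂ + 2 * x ∧ 3 * x ^ 2 + a = l * (2 * y) ∧ y ^ 2 = x ^ 3 + a * x + b := by
  have hy0 : y ≠ 0 := fun e => by
    rw [two_nsmul, Affine.Point.add_self_of_Y_eq (by simp [Affine.negY, e])] at hd
    exact Affine.Point.some_ne_zero _ hd.symm
  have hne : y ≠ (⟨0, 0, 0, a, b⟩ : WeierstrassCurve F).toAffine.negY x y := by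
    simp only [Affine.negY, zero_mul, sub_zero]
    intro e
    exact hy0 ((mul_eq_zero.1 (show 2 * y = 0 by linear_combination e)).resolve_left h2F)
  rw [two_nsmul, Affine.Point.add_self_of_Y_ne hne, Affine.Point.some.injEq,
    Affine.slope_of_Y_ne rfl hne] at hd
  refine ⟨(3 * x ^ 2 + a) / (2 * y), ?_, (div_mul_cancel₀ _ (mul_ne_zero h2F hy0)).symm,
    by simpa using (Affine.equation_iff _ _).mp h.1⟩
  rw [← hd.1]
  simp [Affine.addX, Affine.negY]
  ring

omit hW in
/-- **The ordinate squared divides `4 a³ + 27 b²`** when the point and its double are integral. -/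
theorem sq_dvd_of_integral_double {a b x y x₂ : 𝓞 K} {y₂ : K}
    {h : (⟨0, 0, 0, (a : K), (b : K)⟩ : WeierstrassCurve K).toAffine.Nonsingular (x : K) (y : K)}
    {h₂ : (⟨0, 0, 0, (a : K), (b : K)⟩ : WeierstrassCurve K).toAffine.Nonsingular (x₂ : K) y₂}
    (hd : 2 • Affine.Point.some (x : K) (y : K) h = Affine.Point.some (x₂ : K) y₂ h₂) :
    y ^ 2 ∣ 4 * a ^ 3 + 27 * b ^ 2 := by
  obtain ⟨l, hl2, hl1, hl3⟩ := exists_slope (F := K) two_ne_zero hd
  have hl : IsIntegral ℤ l := IsIntegral.of_pow two_pos (hl2 ▸ (x₂ + 2 * x).2)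
  obtain ⟨L, rfl⟩ : ∃ L : 𝓞 K, (L : K) = l := ⟨⟨l, hl⟩, rfl⟩
  have e1 : 3 * x ^ 2 + a = L * (2 * y) := RingOfIntegers.ext
    (by simpa [map_ofNat] using hl1)
  have e2 : y ^ 2 = x ^ 3 + a * x + b := RingOfIntegers.ext (by simpa using hl3)
  exact ⟨(3 * x ^ 2 + 4 * a) * (2 * L) ^ 2 - 27 * (x ^ 3 + a * x - b), by
    linear_combination ((3 * x ^ 2 + 4 * a) * (3 * x ^ 2 + a + L * (2 * y))) * e1
      + 27 * (x ^ 3 + a * x - b) * e2⟩

end FA.LocalTorsion
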