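import Fermat.Agent.Carayol.Hasse.Derivative
import Fermat.Agent.LocalPts.Multiply
import Mathlib.FieldTheory.Finite.Polynomial

/-!
# The division polynomial of odd prime index `p` modulo `p`

The coefficient of `X ^ k` in `preΨ'ₚ` is divisible by `p` unless `p ∣ k`, for the universal
Weierstrass equation and hence for every integral equation, whatever its reduction.
-/

set_option autoImplicit false
set_option linter.unusedSectionVars false

noncomputable section

open Polynomial WeierstrassCurve FA.EC FA.Local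

namespace FA.LocalTorsion

/-- The universal Weierstrass equation. -/
def univCurve : WeierstrassCurve (MvPolynomial (Fin 5) ℤ) :=
  ⟨MvPolynomial.X 0, MvPolynomial.X 1, MvPolynomial.X 2, MvPolynomial.X 3, MvPolynomial.X 4⟩

/-- The division polynomials depend only on the `b`-invariants. -/
theorem preΨ'_congr {R : Type*} [CommRing R] {W V : WeierstrassCurve R} (h2 : W.b₂ = V.b₂)
    (h4 : W.b₄ = V.b₄) (h6 : W.b₆ = V.b₆) (h8 : W.b₈ = V.b₈) (n : ℕ) :
    W.preΨ' n = V.preΨ' n := by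
  simp only [preΨ', Ψ₂Sq, Ψ₃, preΨ₄, h2, h4, h6, h8]

theorem delta_congr {R : Type*} [CommRing R] {W V : WeierstrassCurve R} (h2 : W.b₂ = V.b₂)
    (h4 : W.b₄ = V.b₄) (h6 : W.b₆ = V.b₆) (h8 : W.b₈ = V.b₈) : W.Δ = V.Δ := by
  simp only [WeierstrassCurve.Δ, h2, h4, h6, h8]

/-- The field of the universal equation in characteristic `p`. -/
abbrev UnivField (p : ℕ) [Fact p.Prime] : Type :=
  AlgebraicClosure (FractionRing (MvPolynomial (Fin 5) (ZMod p)))

/-- **`p` divides the coefficient of `X ^ k` unless `p ∣ k`.** -/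
theorem dvd_coeff_univ {p : ℕ} [hp : Fact p.Prime] (hp2 : p ≠ 2) {k : ℕ} (hk : ¬ p ∣ k) :
    MvPolynomial.C (p : ℤ) ∣ (univCurve.preΨ' p).coeff k := by
  rw [MvPolynomial.C_dvd_iff_zmod]
  set ι : MvPolynomial (Fin 5) (ZMod p) →+* UnivField p :=
    (algebraMap (FractionRing (MvPolynomial (Fin 5) (ZMod p))) (UnivField p)).comp
      (algebraMap (MvPolynomial (Fin 5) (ZMod p)) _)
  have hι : Function.Injective ι :=
    (algebraMap (FractionRing (MvPolynomial (Fin 5) (ZMod p))) (UnivField p)).injective.comp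
      (IsFractionRing.injective _ _)
  apply hι
  rw [map_zero]
  have : CharP (UnivField p) p :=
    charP_of_injective_ringHom (ι.comp MvPolynomial.C).injective p
  have h2 : (2 : UnivField p) ≠ 0 :=
    Ring.two_ne_zero (by rw [ringChar.eq (UnivField p) p]; exact hp2)
  have h4 : (4 : UnivField p) ≠ 0 := by
    rw [show (4 : UnivField p) = 2 * 2 by norm_num]; exact mul_ne_zero h2 h2
  set red := MvPolynomial.map (σ := Fin 5) (Int.castRingHom (ZMod p))
  set W := univCurve.map (ι.comp red)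
  set V := Carayol.shortW (W.b₂ / 4) (W.b₄ / 2) (W.b₆ / 4)
  have e2 : W.b₂ = V.b₂ := by
    rw [show V.b₂ = 4 * (W.b₂ / 4) by simp [V, Carayol.shortW, WeierstrassCurve.b₂]]
    field_simp
  have e4 : W.b₄ = V.b₄ := by
    rw [show V.b₄ = 2 * (W.b₄ / 2) by simp [V, Carayol.shortW, WeierstrassCurve.b₄]]
    field_simp
  have e6 : W.b₆ = V.b₆ := by
    rw [show V.b₆ = 4 * (W.b₆ / 4) by simp [V, Carayol.shortW, WeierstrassCurve.b₆]]
    field_simp
  have e8 : W.b₈ = V.b₈ := by
    refine mul_left_cancel₀ h4 ?_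
    rw [W.b_relation, V.b_relation, e2, e4, e6]
  have hΔ : red univCurve.Δ ≠ 0 := fun h => by
    have h' := congrArg (MvPolynomial.eval ![(0 : ZMod p), 0, 0, 1, 0]) h
    rw [map_zero, ← WeierstrassCurve.map_Δ, ← WeierstrassCurve.map_Δ] at h'
    simp [univCurve, red, WeierstrassCurve.map, WeierstrassCurve.Δ, WeierstrassCurve.b₂,
      WeierstrassCurve.b₄, WeierstrassCurve.b₆, WeierstrassCurve.b₈] at h'
    have h2' : ((2 : ℕ) : ZMod p) ^ 6 = 0 := by
      push_cast
      rcases h' with h' | h'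
      · linear_combination 8 * h'
      · linear_combination 32 * h'
    have h2'' := eq_zero_of_pow_eq_zero h2'
    rw [ZMod.natCast_eq_zero_iff] at h2''
    exact hp2 ((Nat.prime_dvd_prime_iff_eq hp.out Nat.prime_two).1 h2'')
  have hW : IsUnit V.Δ := by
    rw [← delta_congr e2 e4 e6 e8, show W.Δ = ι (red univCurve.Δ) from map_Δ _ _]
    exact isUnit_iff_ne_zero.2 fun h => hΔ (hι (h.trans (map_zero ι).symm))
  have hV : V.IsElliptic := ⟨hW⟩
  have hd := (Carayol.derivative_preΨ'_char (k := UnivField p) (p := p) hp2 (hW := hV)).1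
  rw [← preΨ'_congr e2 e4 e6 e8, map_preΨ'] at hd
  obtain ⟨j, rfl⟩ : ∃ j, k = j + 1 :=
    ⟨k - 1, by rcases k with _ | k; · exact absurd (dvd_zero p) hk
               simp⟩
  have hc := congrArg (fun P : (UnivField p)[X] => P.coeff j) hd
  simp only [coeff_derivative, coeff_zero, coeff_map] at hc
  refine (mul_eq_zero.1 hc).resolve_right ?_
  rw [← Nat.cast_add_one, CharP.cast_eq_zero_iff (UnivField p) p]
  exact hk

variable {L : Type*} [NormedField L] [IsUltrametricDist L] {W : WeierstrassCurve L}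
  (hI : IntCoeff (NormedField.valuation (K := L)) W.toAffine)
include hI

theorem norm_coeff_preΨ'_le_one (n k : ℕ) : ‖(W.preΨ' n).coeff k‖ ≤ 1 := by
  let W₀ : WeierstrassCurve (NormedField.valuation (K := L)).integer :=
    ⟨⟨W.a₁, hI.h₁⟩, ⟨W.a₂, hI.h₂⟩, ⟨W.a₃, hI.h₃⟩, ⟨W.a₄, hI.h₄⟩, ⟨W.a₆, hI.h₆⟩⟩
  have hW : W = W₀.map (NormedField.valuation (K := L)).integer.subtype := rfl
  rw [hW, map_preΨ', coeff_map]
  exact_mod_cast ((W₀.preΨ' n).coeff k).2

/-- **The coefficients prime to `p` in an integral equation.** -/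
theorem norm_coeff_preΨ'_le {p : ℕ} [hp : Fact p.Prime] (hp2 : p ≠ 2) {k : ℕ} (hk : ¬ p ∣ k) :
    ‖(W.preΨ' p).coeff k‖ ≤ ‖(p : L)‖ := by
  set O := (NormedField.valuation (K := L)).integer
  let h : MvPolynomial (Fin 5) ℤ →+* O := MvPolynomial.eval₂Hom (Int.castRingHom O)
    ![⟨W.a₁, hI.h₁⟩, ⟨W.a₂, hI.h₂⟩, ⟨W.a₃, hI.h₃⟩, ⟨W.a₄, hI.h₄⟩, ⟨W.a₆, hI.h₆⟩]
  have hW : W = univCurve.map (O.subtype.comp h) := by
    ext <;> simp [univCurve, WeierstrassCurve.map, h]
  obtain ⟨c, hc⟩ := dvd_coeff_univ hp2 hk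
  rw [hW, map_preΨ', coeff_map, hc, map_mul, MvPolynomial.C_eq_coe_nat, map_natCast, norm_mul]
  exact mul_le_of_le_one_right (norm_nonneg _) (h c).2

/-- **The value at a large abscissa.** -/
theorem norm_eval_preΨ'_le {p : ℕ} [hp : Fact p.Prime] (hp2 : p ≠ 2) {x : L} (hx : 1 ≤ ‖x‖)
    {D E : ℕ} (hD : 2 * D + 1 = p ^ 2) (hE : 2 * E + p = p ^ 2) :
    ∃ s, (W.preΨ' p).eval x = s + (p : L) * x ^ D ∧
      ‖s‖ ≤ max (‖(p : L)‖ * ‖x‖ ^ (D - 1)) (‖x‖ ^ E) := by
  have hodd : ¬ Even p := Nat.not_even_iff_odd.2 (hp.out.odd_of_ne_two hp2)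
  have hD' : (p ^ 2 - if Even p then 4 else 1) / 2 = D := by rw [if_neg hodd]; omega
  have hlead : (W.preΨ' p).coeff D = (p : L) := by
    rw [← hD', coeff_preΨ', if_neg hodd]
  have hdeg : (W.preΨ' p).natDegree < D + 1 := by
    have := W.natDegree_preΨ'_le p
    rw [hD'] at this
    omega
  refine ⟨∑ i ∈ Finset.range D, (W.preΨ' p).coeff i * x ^ i,
    by rw [eval_eq_sum_range' hdeg, Finset.sum_range_succ, hlead],
    IsUltrametricDist.norm_sum_le_of_forall_le_of_nonneg
      (le_max_of_le_right (by positivity)) fun i hi => ?_⟩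
  rw [Finset.mem_range] at hi
  rw [norm_mul, norm_pow]
  rcases le_or_gt i E with h | h
  · exact le_max_of_le_right ((mul_le_of_le_one_left (by positivity)
      (norm_coeff_preΨ'_le_one hI p i)).trans (pow_le_pow_right₀ hx h))
  refine le_max_of_le_left (mul_le_mul (norm_coeff_preΨ'_le hI hp2 fun hdvd => ?_)
    (pow_le_pow_right₀ hx (by omega)) (by positivity) (norm_nonneg _))
  obtain ⟨q, rfl⟩ := hdvd
  obtain ⟨m, hm⟩ := hp.out.odd_of_ne_two hp2
  have hEm : E = p * m := by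
    have h2 : 2 * E + p = p * p := by rw [hE, _root_.sq]
    subst hm
    nlinarith
  have hDm : D = p * m + m := by
    have h2 : 2 * D + 1 = p * p := by rw [hD, _root_.sq]
    subst hm
    nlinarith
  subst hEm hDm
  have hq : m < q := Nat.lt_of_mul_lt_mul_left h
  have : p * (m + 1) ≤ p * q := Nat.mul_le_mul_left p hq
  rw [mul_add, mul_one] at this
  omega

end FA.LocalTorsion
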