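import Fermat.Agent.LocalDescent.Parameter
import Fermat.Agent.LocalTorsion.Coefficients

/-!
# The parameter of a torsion point of the kernel of reduction

A point of exact order `p ^ (k + 1)` in the kernel of reduction of an integral equation has
`‖p‖ ≤ ‖x / y‖ ^ (p ^ k * (p - 1))`. The equation may have bad reduction.
-/

set_option autoImplicit false
set_option linter.unusedSectionVars false

noncomputable section

open Polynomial WeierstrassCurve FA.EC FA.Local FA.SSDR FA.LocalPts FA.LocalDescent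
open scoped Classical

namespace FA.LocalTorsion

variable {K : Type*} [NormedField K] [IsUltrametricDist K] {W : WeierstrassCurve K} [W.IsElliptic]
  (hI : IntCoeff (NormedField.valuation (K := K)) W.toAffine)
include hI

/-- The abscissa is the inverse square of the parameter. -/
theorem norm_par_sq {x y : K} {h : W.toAffine.Nonsingular x y} (hx : 1 < ‖x‖) :
    ‖par (Affine.Point.some x y h)‖ ^ 2 = ‖x‖⁻¹ := by
  obtain ⟨h1, h2⟩ := large_of_one_lt hI h.1 (x := x) (by exact_mod_cast hx)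
  have h2' : ‖y‖ ^ 2 = ‖x‖ ^ 3 := by
    simpa [NormedField.valuation_apply] using congrArg NNReal.toReal h2
  have : ‖x‖ ≠ 0 := (zero_lt_one.trans hx).ne'
  show ‖-x / y‖ ^ 2 = _
  rw [norm_div, norm_neg, div_pow, h2']
  field_simp

theorem mem_e1_iff {x y : K} {h : W.toAffine.Nonsingular x y} :
    Affine.Point.some x y h ∈ e1Subgroup hI ↔ 1 < ‖x‖ := by
  rw [mem_e1Subgroup, e1_some]
  exact ⟨fun hx => by exact_mod_cast hx, fun hx => by exact_mod_cast hx⟩

variable {p : ℕ} [hp : Fact p.Prime]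

/-- **Multiplication by `p` on the parameter.** -/
theorem norm_par_prime_nsmul {P : W.toAffine.Point} (hP : P ∈ e1Subgroup hI) :
    ‖par (p • P)‖ ≤ max (‖(p : K)‖ * ‖par P‖) (‖par P‖ ^ p) := by
  rcases eq_or_ne p 2 with rfl | hp2
  · rw [← sub_add_cancel (par (2 • P)) ((2 : ℕ) * par P)]
    refine (IsUltrametricDist.norm_add_le_max _ _).trans (max_le ?_ ?_)
    · exact le_max_of_le_right ((norm_par_nsmul hI hP 2).trans_eq (_root_.sq _).symm)
    · exact le_max_of_le_left (norm_mul _ _).le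
  rcases eq_or_ne (p • P) 0 with h0 | h0
  · rw [h0, show par (0 : W.toAffine.Point) = 0 from rfl, norm_zero]
    positivity
  rcases P with _ | ⟨x, y, h⟩
  · exact absurd (nsmul_zero p) h0
  have hx : 1 < ‖x‖ := (mem_e1_iff hI).1 hP
  have hm := nsmul_mem hP p
  have hsq := norm_par_sq hI (h := h) hx
  set t := ‖par (Affine.Point.some x y h)‖
  have hodd : ¬ Even p := Nat.not_even_iff_odd.2 (hp.out.odd_of_ne_two hp2)
  obtain ⟨m, hm'⟩ := hp.out.odd_of_ne_two hp2
  set D := 2 * m * m + 2 * m with hDdef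
  set E := p * m with hEdef
  have hD : 2 * D + 1 = p ^ 2 := by rw [hDdef, hm']; ring
  have hE : 2 * E + p = p ^ 2 := by rw [hEdef, hm']; ring
  obtain ⟨s, hs, hsle⟩ := norm_eval_preΨ'_le hI hp2 hx.le hD hE
  have hψ : (W.ΨSq p).eval x ≠ 0 := fun h1 => h0 ((nsmul_eq_zero_iff h p).2 h1)
  have key : ‖par (p • Affine.Point.some x y h)‖ =
      ‖(W.preΨ' p).eval x‖ * t ^ p ^ 2 := by
    rcases e : p • Affine.Point.some x y h with _ | ⟨x', y', h'⟩
    · exact absurd e h0
    rw [e] at hm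
    have hx' : 1 < ‖x'‖ := (mem_e1_iff hI).1 hm
    refine (pow_left_inj₀ (norm_nonneg _) (by positivity) two_ne_zero).1 ?_
    have hxc := xc_zsmul h (p : ℤ) (by rwa [natCast_zsmul])
    rw [natCast_zsmul, e, xc_some] at hxc
    rw [norm_par_sq hI hx', hxc, norm_div, norm_eval_phi hI hx hp.out.ne_zero, ΨSq_ofNat,
      if_neg hodd, mul_one, eval_pow, norm_pow, inv_div, mul_pow, ← pow_mul t, mul_comm (p ^ 2) 2,
      pow_mul, hsq, inv_pow, div_eq_mul_inv]
  have hX : ‖x‖ = (t ^ 2)⁻¹ := by rw [hsq, inv_inv]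
  have ht : 0 < t := lt_of_le_of_ne (norm_nonneg _) fun e => by
    rw [← e, zero_pow two_ne_zero, eq_comm, inv_eq_zero] at hsq
    rw [hsq] at hx
    exact not_lt.2 zero_le_one hx
  rw [key]
  have hev : ‖(W.preΨ' p).eval x‖ ≤ max (‖(p : K)‖ * ‖x‖ ^ D) (‖x‖ ^ E) := by
    rw [hs]
    refine (IsUltrametricDist.norm_add_le_max _ _).trans (max_le (hsle.trans
      (max_le_max (mul_le_mul_of_nonneg_left (pow_le_pow_right₀ hx.le (Nat.sub_le _ _))
        (norm_nonneg _)) le_rfl)) (le_max_of_le_left ?_))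
    rw [norm_mul, norm_pow]
  refine (mul_le_mul_of_nonneg_right hev (by positivity)).trans_eq ?_
  have cancel : ∀ e f : ℕ, ((t ^ 2)⁻¹) ^ e * t ^ (2 * e + f) = t ^ f := fun e f => by
    rw [pow_add, pow_mul, ← mul_assoc, inv_pow,
      inv_mul_cancel₀ (pow_ne_zero e (pow_ne_zero 2 ht.ne')), one_mul]
  rw [max_mul_of_nonneg _ _ (by positivity), mul_assoc, hX]
  congr 1
  · rw [← hD, cancel, pow_one]
  · rw [← hE, cancel]

/-- **Points of order `p`.** -/
theorem norm_le_of_prime_nsmul_eq_zero {P : W.toAffine.Point} (hP : P ∈ e1Subgroup hI)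
    (h0 : P ≠ 0) (hpP : p • P = 0) : ‖(p : K)‖ ≤ ‖par P‖ ^ (p - 1) := by
  rcases eq_or_ne p 2 with rfl | hp2
  · have := norm_par_nsmul hI hP 2
    rw [hpP, show par (0 : W.toAffine.Point) = 0 from rfl, zero_sub, norm_neg, norm_mul] at this
    rw [pow_one]
    exact le_of_mul_le_mul_right this (norm_pos_iff.2 fun e => h0 (eq_zero_of_par hI hP e))
  rcases P with _ | ⟨x, y, h⟩
  · exact absurd rfl h0
  have hx : 1 < ‖x‖ := (mem_e1_iff hI).1 hP
  have hodd : ¬ Even p := Nat.not_even_iff_odd.2 (hp.out.odd_of_ne_two hp2)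
  obtain ⟨m, hm⟩ := hp.out.odd_of_ne_two hp2
  set D := 2 * m * m + 2 * m with hDdef
  set E := p * m with hEdef
  have hD : 2 * D + 1 = p ^ 2 := by rw [hDdef, hm]; ring
  have hE : 2 * E + p = p ^ 2 := by rw [hEdef, hm]; ring
  have hDE : D = E + m := by rw [hDdef, hEdef, hm]; ring
  have hm0 : 0 < m := by
    have := hp.out.two_le
    omega
  obtain ⟨s, hs, hsle⟩ := norm_eval_preΨ'_le hI hp2 hx.le hD hE
  have hψ := (nsmul_eq_zero_iff h p).1 hpP
  rw [ΨSq_ofNat, if_neg hodd, mul_one, eval_pow, pow_eq_zero_iff two_ne_zero, hs,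
    add_eq_zero_iff_eq_neg] at hψ
  rw [hψ, norm_neg, norm_mul, norm_pow] at hsle
  rw [show p - 1 = 2 * m by omega, pow_mul, norm_par_sq hI hx, inv_pow,
    ← one_div, le_div_iff₀ (by positivity)]
  rcases (norm_nonneg (p : K)).eq_or_lt with hp0 | hp0
  · rw [← hp0, zero_mul]; exact zero_le_one
  rcases le_max_iff.1 hsle with h1 | h1
  · exfalso
    have h2 := le_of_mul_le_mul_left h1 hp0
    exact absurd h2 (not_le.2 (pow_lt_pow_right₀ hx (by omega)))
  · rw [hDE, pow_add, mul_left_comm] at h1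
    exact le_of_mul_le_mul_left (h1.trans_eq (mul_one _).symm) (by positivity)

/-- **Points of order `p ^ (k + 1)`.** -/
theorem norm_le_of_pow_order {k : ℕ} {P : W.toAffine.Point} (hP : P ∈ e1Subgroup hI)
    (h1 : p ^ (k + 1) • P = 0) (h0 : p ^ k • P ≠ 0) :
    ‖(p : K)‖ ≤ ‖par P‖ ^ (p ^ k * (p - 1)) := by
  induction k generalizing P with
  | zero =>
    rw [zero_add, pow_one] at h1
    rw [pow_zero, one_nsmul] at h0
    rw [pow_zero, one_mul]
    exact norm_le_of_prime_nsmul_eq_zero hI hP h0 h1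
  | succ k ih =>
    have hQ := ih (P := p • P) (nsmul_mem hP p) (by rwa [← mul_nsmul', ← pow_succ])
      (by rwa [← mul_nsmul', ← pow_succ])
    rcases (norm_nonneg (p : K)).eq_or_lt with hp0 | hp0
    · rw [← hp0]; positivity
    have hn : p ^ k * (p - 1) ≠ 0 :=
      Nat.mul_ne_zero (pow_ne_zero _ hp.out.ne_zero) (by have := hp.out.two_le; omega)
    have hlt := norm_par_lt_one hI hP
    have hp1 : ‖(p : K)‖ ≤ 1 := IsUltrametricDist.norm_natCast_le_one K p
    rw [pow_succ', mul_assoc, pow_mul]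
    rcases le_max_iff.1 (norm_par_prime_nsmul hI (p := p) hP) with h | h
    · refine absurd (hQ.trans ((pow_le_pow_left₀ (norm_nonneg _) h _).trans
        (pow_le_of_le_one (by positivity) ?_ hn))) (not_le.2 (mul_lt_of_lt_one_right hp0 hlt))
      exact (mul_le_of_le_one_right (norm_nonneg _) hlt.le).trans hp1
    · exact hQ.trans (pow_le_pow_left₀ (norm_nonneg _) h _)

/-- **Cassels's bound on a torsion point of the kernel of reduction.** -/
theorem torsion_parameter_bound {x y : K} (h : W.toAffine.Nonsingular x y) (hx : 1 < ‖x‖) {k : ℕ}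
    (hord : addOrderOf (Affine.Point.some x y h) = p ^ (k + 1)) :
    ‖(p : K)‖ ≤ ‖x / y‖ ^ (p ^ k * (p - 1)) := by
  have h0 : p ^ k • Affine.Point.some x y h ≠ 0 := fun e => by
    have := addOrderOf_dvd_of_nsmul_eq_zero e
    rw [hord, Nat.pow_dvd_pow_iff_le_right hp.out.one_lt] at this
    omega
  have := norm_le_of_pow_order hI ((mem_e1_iff hI).2 hx)
    (hord ▸ addOrderOf_nsmul_eq_zero (Affine.Point.some x y h)) h0
  rwa [show ‖par (Affine.Point.some x y h)‖ = ‖x / y‖ by
    show ‖-x / y‖ = _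
    rw [neg_div, norm_neg]] at this

end FA.LocalTorsion
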