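import Fermat.Agent.LocalTorsion.Free

/-!
# The denominators of a torsion point at one place

A torsion point with `1 < ‖x‖` on an integral equation has order `p ^ (k + 1)` for the prime `p`
with `‖p‖ < 1`, and then `‖p ^ 2 x ^ n‖ ≤ 1` and `‖p ^ 3 y ^ n‖ ≤ 1` for `n = p ^ k (p - 1)`; in a
field of degree `d` over `ℚ` this forces `n ≤ d`.
-/

set_option autoImplicit false
set_option linter.unusedSectionVars false

noncomputable section

open WeierstrassCurve FA.EC FA.Local FA.LocalPts FA.LocalDescent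
open scoped Classical

namespace FA.LocalTorsion

variable {K : Type*} [NormedField K] [IsUltrametricDist K]

section

variable {W : WeierstrassCurve K} [W.IsElliptic]
  (hI : IntCoeff (NormedField.valuation (K := K)) W.toAffine) {x y : K}
  (h : W.toAffine.Nonsingular x y)
include hI

/-- **The order of a torsion point with `1 < ‖x‖`.** -/
theorem exists_prime_pow_order (hx : 1 < ‖x‖) (hfin : IsOfFinAddOrder (Affine.Point.some x y h)) :
    ∃ p k : ℕ, p.Prime ∧ ‖(p : K)‖ < 1 ∧ addOrderOf (Affine.Point.some x y h) = p ^ (k + 1) ∧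
      ‖(p : K)‖ ≤ ‖x / y‖ ^ (p ^ k * (p - 1)) := by
  set P := Affine.Point.some x y h
  have hP := (mem_e1_iff hI (h := h)).2 hx
  have hpos := hfin.addOrderOf_pos
  have h1 : addOrderOf P ≠ 1 := fun e =>
    Affine.Point.some_ne_zero h (AddMonoid.addOrderOf_eq_one_iff.1 e)
  have hdiv : ∀ l : ℕ, l.Prime → l ∣ addOrderOf P → ‖(l : K)‖ < 1 := fun l hl hdvd => by
    by_contra hlt
    have hl1 : ‖(l : K)‖ = 1 :=
      (IsUltrametricDist.norm_natCast_le_one K l).antisymm (not_lt.1 hlt)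
    obtain ⟨c, hc⟩ := hdvd
    have hm := nsmul_mem hP c
    have h2 := norm_par_nsmul_eq hI hm (n := l) (by rw [hl1]; exact norm_par_lt_one hI hm)
    rw [← mul_nsmul, mul_comm, ← hc, addOrderOf_nsmul_eq_zero, hl1, one_mul,
      show par (0 : W.toAffine.Point) = 0 from rfl, norm_zero] at h2
    have h3 := Nat.le_of_dvd (Nat.pos_of_ne_zero fun e => by rw [e, mul_zero] at hc; omega)
      (addOrderOf_dvd_of_nsmul_eq_zero (eq_zero_of_par hI hm (norm_eq_zero.1 h2.symm)))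
    rw [hc] at h3
    have h4 : 0 < c := Nat.pos_of_ne_zero fun e => by rw [e, mul_zero] at hc; omega
    exact absurd h3 (not_le.2 (lt_mul_of_one_lt_left h4 hl.one_lt))
  obtain ⟨hp, hd⟩ := Nat.minFac_prime h1, Nat.minFac_dvd (addOrderOf P)
  set p := (addOrderOf P).minFac with hpdef
  have : Fact p.Prime := ⟨hp⟩
  have hpK := hdiv p hp hd
  obtain ⟨v, u, hu, hn⟩ := Nat.exists_eq_pow_mul_and_not_dvd hpos.ne' p hp.ne_one
  have hu1 : u = 1 := by
    by_contra hne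
    have hl := Nat.minFac_prime hne
    have hlu := Nat.minFac_dvd u
    have hlK := hdiv _ hl (hlu.trans ⟨p ^ v, by rw [hn, mul_comm]⟩)
    rw [norm_natCast_of_not_dvd (p := p) hpK fun hdvd =>
      hu (((Nat.prime_dvd_prime_iff_eq hp hl).1 hdvd) ▸ hlu)] at hlK
    exact lt_irrefl _ hlK
  rw [hu1, mul_one] at hn
  obtain ⟨k, rfl⟩ : ∃ k, v = k + 1 :=
    ⟨v - 1, by rcases v with _ | v; · exact absurd (hn.trans (pow_zero p)) h1
               simp⟩
  exact ⟨p, k, hp, hpK, hn, torsion_parameter_bound hI h hx hn⟩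

/-- A torsion point whose order is no prime power is integral. -/
theorem norm_le_one_of_not_primePow (hfin : IsOfFinAddOrder (Affine.Point.some x y h))
    (hm : ¬ IsPrimePow (addOrderOf (Affine.Point.some x y h))) : ‖x‖ ≤ 1 ∧ ‖y‖ ≤ 1 := by
  have hx : ‖x‖ ≤ 1 := not_lt.1 fun hx => by
    obtain ⟨p, k, hp, -, hord, -⟩ := exists_prime_pow_order hI h hx hfin
    exact hm (hord ▸ hp.isPrimePow.pow k.succ_ne_zero)
  exact ⟨hx, (norm_snd_le hI h.1 le_rfl hx).trans_eq (one_pow 2)⟩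

/-- **The denominators of a point of order `p ^ (k + 1)`.** -/
theorem norm_cleared_le_one {p k : ℕ} [hp : Fact p.Prime]
    (hord : addOrderOf (Affine.Point.some x y h) = p ^ (k + 1)) :
    ‖(p : K) ^ 2 * x ^ (p ^ k * (p - 1))‖ ≤ 1 ∧ ‖(p : K) ^ 3 * y ^ (p ^ k * (p - 1))‖ ≤ 1 := by
  set n := p ^ k * (p - 1)
  have hp1 : ‖(p : K)‖ ≤ 1 := IsUltrametricDist.norm_natCast_le_one K p
  rcases le_or_gt ‖x‖ 1 with hx | hx
  · have hy : ‖y‖ ≤ 1 := (norm_snd_le hI h.1 le_rfl hx).trans_eq (one_pow 2)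
    simp only [norm_mul, norm_pow]
    exact ⟨mul_le_one₀ (pow_le_one₀ (norm_nonneg _) hp1) (by positivity)
        (pow_le_one₀ (norm_nonneg _) hx),
      mul_le_one₀ (pow_le_one₀ (norm_nonneg _) hp1) (by positivity)
        (pow_le_one₀ (norm_nonneg _) hy)⟩
  have hb := torsion_parameter_bound hI h hx hord
  have ht : ‖x / y‖ ^ 2 = ‖x‖⁻¹ := by
    rw [← norm_par_sq hI (h := h) hx]
    show _ = ‖-x / y‖ ^ 2
    rw [neg_div, norm_neg]
  have hy2 : ‖y‖ ^ 2 = ‖x‖ ^ 3 := by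
    obtain ⟨-, h2⟩ := large_of_one_lt hI h.1 (x := x) (by exact_mod_cast hx)
    simpa [NormedField.valuation_apply] using congrArg NNReal.toReal h2
  have h2 : ‖(p : K)‖ ^ 2 * ‖x‖ ^ n ≤ 1 := by
    refine (mul_le_mul_of_nonneg_right (pow_le_pow_left₀ (norm_nonneg _) hb 2)
      (by positivity)).trans_eq ?_
    rw [← pow_mul, mul_comm _ 2, pow_mul, ht, ← mul_pow,
      inv_mul_cancel₀ (zero_lt_one.trans hx).ne', one_pow]
  refine ⟨by rw [norm_mul, norm_pow, norm_pow]; exact h2, ?_⟩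
  rw [norm_mul, norm_pow, norm_pow, ← pow_le_one_iff_of_nonneg (by positivity) two_ne_zero]
  calc (‖(p : K)‖ ^ 3 * ‖y‖ ^ n) ^ 2 = (‖(p : K)‖ ^ 2) ^ 3 * (‖y‖ ^ 2) ^ n := by ring
    _ = (‖(p : K)‖ ^ 2 * ‖x‖ ^ n) ^ 3 := by rw [hy2, mul_pow, ← pow_mul, ← pow_mul, ← pow_mul,
        mul_comm 3 n]
    _ ≤ 1 := pow_le_one₀ (by positivity) h2

end

section

variable [CharZero K] {d : ℕ} (hd : 0 < d)
  (hdep : ∀ z : K, ∃ g : Fin (d + 1) → ℤ, ∑ i, (g i : K) * z ^ (i : ℕ) = 0 ∧ ∃ i, g i ≠ 0)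
  {p : ℕ} [hp : Fact p.Prime]

include hd hdep

/-- Where every `1, z, …, z ^ d` is dependent over `ℤ` an element of norm less than one has
`‖z‖ ^ d ≤ ‖p‖`. -/
theorem norm_pow_degree_le (hpK : ‖(p : K)‖ < 1) {z : K} (hz : ‖z‖ < 1) :
    ‖z‖ ^ d ≤ ‖(p : K)‖ := by
  rcases eq_or_ne z 0 with rfl | hz0
  · rw [norm_zero, zero_pow hd.ne']; positivity
  have hzp : 0 < ‖z‖ := norm_pos_iff.2 hz0
  have hp0 : 0 < ‖(p : K)‖ := norm_pos_iff.2 (Nat.cast_ne_zero.2 hp.out.ne_zero)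
  obtain ⟨g, hg, i₀, hi₀⟩ := hdep z
  have hint : ∀ a : ℤ, a ≠ 0 → ∃ e : ℕ, ‖(a : K)‖ = ‖(p : K)‖ ^ e := fun a ha => by
    obtain ⟨e, u, hu, he⟩ :=
      Nat.exists_eq_pow_mul_and_not_dvd (Int.natAbs_ne_zero.2 ha) p hp.out.ne_one
    refine ⟨e, ?_⟩
    have hna : ‖(a : K)‖ = ‖((a.natAbs : ℕ) : K)‖ := by
      rcases Int.natAbs_eq a with h | h <;> conv_lhs => rw [h]
      · rw [Int.cast_natCast]
      · rw [Int.cast_neg, Int.cast_natCast, norm_neg]
    rw [hna, he, Nat.cast_mul, Nat.cast_pow, norm_mul, norm_pow, norm_natCast_of_not_dvd hpK hu,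
      mul_one]
  obtain ⟨j, -, hj⟩ := Finset.exists_max_image Finset.univ
    (fun i : Fin (d + 1) => ‖(g i : K) * z ^ (i : ℕ)‖) ⟨0, Finset.mem_univ _⟩
  have hj0 : 0 < ‖(g j : K) * z ^ (j : ℕ)‖ := (norm_pos_iff.2
    (mul_ne_zero (Int.cast_ne_zero.2 hi₀) (pow_ne_zero _ hz0))).trans_le (hj i₀ (Finset.mem_univ _))
  rw [← Finset.add_sum_erase _ _ (Finset.mem_univ j), add_eq_zero_iff_eq_neg] at hg
  obtain ⟨i, hij, hi⟩ :
      ∃ i, i ≠ j ∧ ‖(g i : K) * z ^ (i : ℕ)‖ = ‖(g j : K) * z ^ (j : ℕ)‖ := by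
    rcases (Finset.univ.erase j).eq_empty_or_nonempty with he | he
    · rw [hg, he, Finset.sum_empty, neg_zero, norm_zero] at hj0
      exact absurd hj0 (lt_irrefl _)
    obtain ⟨i, hi, hle⟩ := IsUltrametricDist.exists_norm_finsetSum_le
      (Finset.univ.erase j) (fun i : Fin (d + 1) => (g i : K) * z ^ (i : ℕ))
    refine ⟨i, Finset.ne_of_mem_erase (hi he), (hj i (Finset.mem_univ _)).antisymm ?_⟩
    rw [hg, norm_neg]
    exact hle
  have key : ∀ a b : Fin (d + 1), (a : ℕ) < b →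
      ‖(g a : K) * z ^ (a : ℕ)‖ = ‖(g b : K) * z ^ (b : ℕ)‖ →
      0 < ‖(g b : K) * z ^ (b : ℕ)‖ → ‖z‖ ^ d ≤ ‖(p : K)‖ := fun a b hab he hpos => by
    obtain ⟨c, hc⟩ : ∃ c, (b : ℕ) = a + c := ⟨b - a, by omega⟩
    have hga : g a ≠ 0 := fun e => by
      rw [← he, e, Int.cast_zero, zero_mul, norm_zero] at hpos; exact lt_irrefl _ hpos
    have hgb : g b ≠ 0 := fun e => by
      rw [e, Int.cast_zero, zero_mul, norm_zero] at hpos; exact lt_irrefl _ hpos
    obtain ⟨ea, hea⟩ := hint _ hga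
    obtain ⟨eb, heb⟩ := hint _ hgb
    rw [norm_mul, norm_mul, norm_pow, norm_pow, hea, heb, hc, pow_add, mul_left_comm,
      mul_comm (‖(p : K)‖ ^ ea)] at he
    have he' := mul_left_cancel₀ (pow_ne_zero _ hzp.ne') he
    have hzc : ‖z‖ ^ c < 1 := pow_lt_one₀ (norm_nonneg z) hz (by omega)
    have hlt : eb < ea := not_le.1 fun hle => absurd
      (pow_le_pow_of_le_one hp0.le hpK.le hle)
      (not_le.2 (he'.trans_lt (mul_lt_of_lt_one_right (pow_pos hp0 eb) hzc)))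
    obtain ⟨e, rfl⟩ : ∃ e, ea = eb + (e + 1) := ⟨ea - eb - 1, by omega⟩
    rw [pow_add] at he'
    refine (pow_le_pow_of_le_one (norm_nonneg _) hz.le (show c ≤ d by omega)).trans ?_
    rw [← mul_left_cancel₀ (pow_ne_zero _ hp0.ne') he']
    exact pow_le_of_le_one (norm_nonneg _) hpK.le e.succ_ne_zero
  rcases lt_or_gt_of_ne (Fin.val_ne_of_ne hij) with h | h
  · exact key i j h hi hj0
  · exact key j i h hi.symm (hi ▸ hj0)

/-- **The degree bounds the order of a point with denominators.** -/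
theorem le_degree_of_one_lt {W : WeierstrassCurve K} [W.IsElliptic]
    (hI : IntCoeff (NormedField.valuation (K := K)) W.toAffine) {x y : K}
    (h : W.toAffine.Nonsingular x y) (hx : 1 < ‖x‖)
    (hfin : IsOfFinAddOrder (Affine.Point.some x y h)) :
    ∃ p k : ℕ, p.Prime ∧ addOrderOf (Affine.Point.some x y h) = p ^ (k + 1) ∧
      p ^ k * (p - 1) ≤ d := by
  obtain ⟨p, k, hp, hpK, hord, hb⟩ := exists_prime_pow_order hI h hx hfin
  have : Fact p.Prime := ⟨hp⟩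
  refine ⟨p, k, hp, hord, not_lt.1 fun hlt => ?_⟩
  obtain ⟨hxy, -⟩ := large_of_one_lt hI h.1 (x := x) (by exact_mod_cast hx)
  have hy : ‖x‖ < ‖y‖ := by exact_mod_cast hxy
  have hz : ‖x / y‖ < 1 := by
    rw [norm_div, div_lt_one ((norm_nonneg _).trans_lt hy)]; exact hy
  have hz0 : 0 < ‖x / y‖ := by
    rw [norm_div]
    exact div_pos (zero_lt_one.trans hx) ((norm_nonneg _).trans_lt hy)
  exact absurd hb (not_le.2 ((pow_lt_pow_right_of_lt_one₀ hz0 hz hlt).trans_le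
    (norm_pow_degree_le hd hdep hpK hz)))

end

end FA.LocalTorsion
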