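import Fermat.Agent.LocalTorsion.Bound
import Mathlib.NumberTheory.Padics.ProperSpace

/-!
# The bound is attained

Over `ℚ₂` the point `(-1/4, 1/8)` of `y² + xy = x³ + 4x² + x` has order two, lies in the kernel of
reduction and has `‖x / y‖ = ‖2‖`.
-/

set_option autoImplicit false

noncomputable section

open WeierstrassCurve FA.EC FA.Local
open scoped Classical

namespace FA.LocalTorsion

/-- The equation `y² + xy = x³ + 4x² + x`, of discriminant `225`. -/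
def sharpCurve : WeierstrassCurve ℚ_[2] := ⟨1, 4, 0, 1, 0⟩

theorem sharpCurve_attains :
    ∃ h : sharpCurve.toAffine.Nonsingular (-(4 : ℚ_[2])⁻¹) (8 : ℚ_[2])⁻¹,
      IntCoeff (NormedField.valuation (K := ℚ_[2])) sharpCurve.toAffine ∧
      addOrderOf (Affine.Point.some _ _ h) = 2 ∧ 1 < ‖-(4 : ℚ_[2])⁻¹‖ ∧
      ‖-(4 : ℚ_[2])⁻¹ / (8 : ℚ_[2])⁻¹‖ = ‖(2 : ℚ_[2])‖ := by
  have hΔ : sharpCurve.Δ = 225 := by
    simp [sharpCurve, WeierstrassCurve.Δ, WeierstrassCurve.b₂, WeierstrassCurve.b₄,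
      WeierstrassCurve.b₆, WeierstrassCurve.b₈]
    norm_num
  have : sharpCurve.IsElliptic := ⟨by rw [hΔ]; exact isUnit_iff_ne_zero.2 (by norm_num)⟩
  have hE : sharpCurve.toAffine.Equation (-(4 : ℚ_[2])⁻¹) (8 : ℚ_[2])⁻¹ := by
    rw [Affine.equation_iff]
    simp only [sharpCurve]
    norm_num
  refine ⟨Affine.equation_iff_nonsingular.1 hE, ?_, ?_, ?_, ?_⟩
  · refine ⟨?_, ?_, ?_, ?_, ?_⟩ <;> show ‖(_ : ℚ_[2])‖ ≤ 1 <;> simp only [sharpCurve]
    · exact norm_one.le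
    · exact IsUltrametricDist.norm_natCast_le_one ℚ_[2] 4
    · simp
    · exact norm_one.le
    · simp
  · refine addOrderOf_eq_prime ?_ (Affine.Point.some_ne_zero _)
    rw [two_nsmul, add_eq_zero_iff_eq_neg, Affine.Point.neg_some, Affine.Point.some.injEq]
    refine ⟨rfl, ?_⟩
    simp only [Affine.negY, sharpCurve]
    norm_num
  · rw [norm_neg, norm_inv, show (4 : ℚ_[2]) = ((2 : ℕ) : ℚ_[2]) ^ 2 by norm_num, norm_pow,
      Padic.norm_p]
    norm_num
  · rw [show -(4 : ℚ_[2])⁻¹ / (8 : ℚ_[2])⁻¹ = -2 by norm_num, norm_neg]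

end FA.LocalTorsion
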