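import Fermat.Agent.LocalDescent.Main
import Fermat.Agent.LocalTorsion.Bound

/-!
# A torsion-free kernel of reduction

When every element of norm less than one has `‖z‖ ^ (p - 1) < ‖p‖`, for instance over an extension
of `ℚ_p` of degree less than `p - 1`, the kernel of reduction has no torsion, and the order of the
torsion subgroup divides the index of the kernel of reduction.
-/

set_option autoImplicit false
set_option linter.unusedSectionVars false

noncomputable section

open WeierstrassCurve FA.EC FA.Local FA.SSDR FA.LocalPts FA.LocalDescent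
open scoped Classical

namespace FA.LocalTorsion

variable {p : ℕ} [hp : Fact p.Prime]

/-- An integer prime to the residue characteristic has norm one. -/
theorem norm_natCast_of_not_dvd {K : Type*} [NormedField K] [IsUltrametricDist K]
    (hpK : ‖(p : K)‖ < 1) {m : ℕ} (hm : ¬ p ∣ m) : ‖(m : K)‖ = 1 := by
  refine (IsUltrametricDist.norm_natCast_le_one K m).antisymm (not_lt.1 fun h => ?_)
  obtain ⟨a, b, hab⟩ : IsCoprime (p : ℤ) m :=
    Nat.isCoprime_iff_coprime.2 (hp.out.coprime_iff_not_dvd.2 hm)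
  have e : (a : K) * p + (b : K) * m = 1 := by exact_mod_cast congrArg (Int.cast (R := K)) hab
  have h1 := IsUltrametricDist.norm_add_le_max ((a : K) * p) ((b : K) * m)
  rw [e, norm_one, norm_mul, norm_mul] at h1
  refine absurd h1 (not_le.2 (max_lt ?_ ?_))
  · exact (mul_le_of_le_one_left (norm_nonneg _)
      (IsUltrametricDist.norm_intCast_le_one K a)).trans_lt hpK
  · exact (mul_le_of_le_one_left (norm_nonneg _)
      (IsUltrametricDist.norm_intCast_le_one K b)).trans_lt h

section

variable {K : Type*} [NormedField K] [IsUltrametricDist K] {W : WeierstrassCurve K} [W.IsElliptic]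
  (hI : IntCoeff (NormedField.valuation (K := K)) W.toAffine) (hpK : ‖(p : K)‖ < 1)
  (hsmall : ∀ z : K, ‖z‖ < 1 → ‖z‖ ^ (p - 1) < ‖(p : K)‖)

include hI hpK hsmall

/-- **The kernel of reduction is torsion free.** -/
theorem formal_group_torsion_free {P : W.toAffine.Point} (hP : P ∈ e1Subgroup hI)
    (hfin : IsOfFinAddOrder P) : P = 0 := by
  obtain ⟨v, u, hu, hn⟩ := Nat.exists_eq_pow_mul_and_not_dvd hfin.addOrderOf_pos.ne' p hp.out.ne_one
  have hu1 := norm_natCast_of_not_dvd hpK hu
  have h0 : p ^ v • P = 0 := by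
    have hm := nsmul_mem hP (p ^ v)
    have h1 := norm_par_nsmul_eq hI hm (n := u) (by rw [hu1]; exact norm_par_lt_one hI hm)
    rw [← mul_nsmul, ← hn, addOrderOf_nsmul_eq_zero, hu1, one_mul,
      show par (0 : W.toAffine.Point) = 0 from rfl, norm_zero] at h1
    exact eq_zero_of_par hI hm (norm_eq_zero.1 h1.symm)
  induction v with
  | zero => simpa using h0
  | succ j _ =>
    by_contra hne
    have hj : p ^ j • P ≠ 0 := fun e => by
      have h2 := Nat.le_of_dvd (pow_pos hp.out.pos j) (addOrderOf_dvd_of_nsmul_eq_zero e)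
      rw [hn, pow_succ, mul_assoc] at h2
      have hu0 : 0 < u := Nat.pos_of_ne_zero fun e' => hu (e' ▸ dvd_zero p)
      exact absurd h2 (not_le.2 (lt_mul_of_one_lt_right (pow_pos hp.out.pos j)
        (one_lt_mul_of_lt_of_le hp.out.one_lt hu0)))
    have h := norm_le_of_pow_order hI hP h0 hj
    refine absurd h (not_le.2 ((pow_le_pow_of_le_one (norm_nonneg _) (norm_par_lt_one hI hP).le
      (Nat.le_mul_of_pos_left _ (pow_pos hp.out.pos j))).trans_lt ?_))
    exact hsmall _ (norm_par_lt_one hI hP)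

/-- **The order of the torsion divides the index of the kernel of reduction.** -/
theorem card_torsion_dvd_index :
    Nat.card (AddCommGroup.torsion W.toAffine.Point) ∣ (e1Subgroup hI).index := by
  rw [AddSubgroup.index_eq_card]
  refine AddSubgroup.card_dvd_of_injective
    ((QuotientAddGroup.mk' (e1Subgroup hI)).comp (AddCommGroup.torsion W.toAffine.Point).subtype)
    ((injective_iff_map_eq_zero _).2 fun P hP => ?_)
  exact Subtype.ext (formal_group_torsion_free hI hpK hsmall
    ((QuotientAddGroup.eq_zero_iff _).1 hP) P.2)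

end

section

variable (p) {K : Type*} [NormedField K] [NormedAlgebra ℚ_[p] K] [FiniteDimensional ℚ_[p] K]
  [IsUltrametricDist K]

/-- In degree `d` an element of norm less than one has `‖z‖ ^ d ≤ ‖p‖`. -/
theorem norm_pow_finrank_le {z : K} (hz : ‖z‖ < 1) :
    ‖z‖ ^ Module.finrank ℚ_[p] K ≤ (p : ℝ)⁻¹ := by
  set d := Module.finrank ℚ_[p] K
  have hd : 0 < d := Module.finrank_pos
  rcases eq_or_ne z 0 with rfl | hz0
  · rw [norm_zero, zero_pow hd.ne']; positivity
  obtain ⟨g, hg, i₀, hi₀⟩ := Fintype.not_linearIndependent_iff.1 fun h :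
      LinearIndependent ℚ_[p] (fun i : Fin (d + 1) => z ^ (i : ℕ)) => by
    have := h.fintype_card_le_finrank
    rw [Fintype.card_fin] at this
    omega
  obtain ⟨j, -, hj⟩ := Finset.exists_max_image Finset.univ
    (fun i : Fin (d + 1) => ‖g i • z ^ (i : ℕ)‖) ⟨0, Finset.mem_univ _⟩
  have hj0 : 0 < ‖g j • z ^ (j : ℕ)‖ := (norm_pos_iff.2
    (smul_ne_zero hi₀ (pow_ne_zero _ hz0))).trans_le (hj i₀ (Finset.mem_univ _))
  rw [← Finset.add_sum_erase _ _ (Finset.mem_univ j), add_eq_zero_iff_eq_neg] at hg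
  obtain ⟨i, hij, hi⟩ : ∃ i, i ≠ j ∧ ‖g i • z ^ (i : ℕ)‖ = ‖g j • z ^ (j : ℕ)‖ := by
    rcases (Finset.univ.erase j).eq_empty_or_nonempty with he | he
    · rw [hg, he, Finset.sum_empty, neg_zero, norm_zero] at hj0
      exact absurd hj0 (lt_irrefl _)
    obtain ⟨i, hi, hle⟩ := IsUltrametricDist.exists_norm_finsetSum_le
      (Finset.univ.erase j) (fun i : Fin (d + 1) => g i • z ^ (i : ℕ))
    refine ⟨i, Finset.ne_of_mem_erase (hi he), (hj i (Finset.mem_univ _)).antisymm ?_⟩
    rw [hg, norm_neg]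
    exact hle
  have hp1 : (1 : ℝ) < p := Nat.one_lt_cast.2 hp.out.one_lt
  have hzp : 0 < ‖z‖ := norm_pos_iff.2 hz0
  have key : ∀ a b : Fin (d + 1), (a : ℕ) < b → ‖g a • z ^ (a : ℕ)‖ = ‖g b • z ^ (b : ℕ)‖ →
      0 < ‖g b • z ^ (b : ℕ)‖ → ‖z‖ ^ d ≤ (p : ℝ)⁻¹ := fun a b hab he hpos => by
    obtain ⟨c, hc⟩ : ∃ c, (b : ℕ) = a + c := ⟨b - a, by omega⟩
    have ha0 : g a ≠ 0 := fun e => by
      rw [← he, e, zero_smul, norm_zero] at hpos; exact lt_irrefl _ hpos
    have hb0 : g b ≠ 0 := fun e => by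
      rw [e, zero_smul, norm_zero] at hpos; exact lt_irrefl _ hpos
    rw [norm_smul, norm_smul, norm_pow, norm_pow, hc, pow_add, mul_left_comm, mul_comm ‖g a‖] at he
    have he' := mul_left_cancel₀ (pow_ne_zero _ hzp.ne') he
    rw [Padic.norm_eq_zpow_neg_valuation ha0, Padic.norm_eq_zpow_neg_valuation hb0] at he'
    have hc' : ‖z‖ ^ c = (p : ℝ) ^ (-(g a).valuation - -(g b).valuation) := by
      rw [zpow_sub₀ (zero_lt_one.trans hp1).ne', he',
        mul_div_cancel_left₀ _ (zpow_ne_zero _ (zero_lt_one.trans hp1).ne')]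
    have hlt : -(g a).valuation - -(g b).valuation ≤ -1 := by
      have := (pow_lt_one₀ (norm_nonneg z) hz (show c ≠ 0 by omega))
      rw [hc', zpow_lt_one_iff_right₀ hp1] at this
      omega
    refine (pow_le_pow_of_le_one (norm_nonneg _) hz.le (show c ≤ d by omega)).trans ?_
    rw [hc', ← _root_.zpow_neg_one]
    exact zpow_le_zpow_right₀ hp1.le hlt
  rcases lt_or_gt_of_ne (Fin.val_ne_of_ne hij) with h | h
  · exact key i j h hi hj0
  · exact key j i h hi.symm (hi ▸ hj0)

/-- **Low degree.** -/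
theorem norm_pow_lt_of_finrank_lt (hd : Module.finrank ℚ_[p] K < p - 1) (z : K) (hz : ‖z‖ < 1) :
    ‖z‖ ^ (p - 1) < ‖(p : K)‖ := by
  rw [← map_natCast (algebraMap ℚ_[p] K), norm_algebraMap', Padic.norm_p]
  rcases eq_or_ne z 0 with rfl | hz0
  · rw [norm_zero, zero_pow (by omega)]
    exact inv_pos.2 (Nat.cast_pos.2 hp.out.pos)
  · exact (pow_lt_pow_right_of_lt_one₀ (norm_pos_iff.2 hz0) hz hd).trans_le
      (norm_pow_finrank_le p hz)

/-- **Below degree `p - 1` the kernel of reduction has no torsion.** -/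
theorem formal_group_torsion_free_of_finrank_lt {W : WeierstrassCurve K} [W.IsElliptic]
    (hI : IntCoeff (NormedField.valuation (K := K)) W.toAffine)
    (hd : Module.finrank ℚ_[p] K < p - 1) {P : W.toAffine.Point} (hP : P ∈ e1Subgroup hI)
    (hfin : IsOfFinAddOrder P) : P = 0 :=
  formal_group_torsion_free hI
    (by rw [← map_natCast (algebraMap ℚ_[p] K), norm_algebraMap']; exact Padic.norm_p_lt_one)
    (norm_pow_lt_of_finrank_lt p hd) hP hfin

end

end FA.LocalTorsion
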