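import Fermat.Agent.LocalDescent.Herbrand
import Mathlib.GroupTheory.Torsion
import Mathlib.Algebra.Module.ZMod
import Mathlib.LinearAlgebra.FreeModule.PID
import Mathlib.LinearAlgebra.Dimension.Free
import Mathlib.Algebra.Field.ZMod
import Mathlib.FieldTheory.Finiteness
import Mathlib.LinearAlgebra.Basis.VectorSpace

/-!
# Abelian groups which are `p`-adically free of finite rank

A separated complete `p`-torsion-free group with `[H : pH] = p ^ d` is `ℤ_p ^ d`. A group with such
a subgroup of finite index is the product of `ℤ_p ^ d` with its torsion subgroup.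
-/

set_option autoImplicit false
set_option linter.unusedSectionVars false

noncomputable section

open Filter Topology FA.LocalDescent

namespace FA.LocalTorsion

variable {p : ℕ} [hp : Fact p.Prime]

theorem norm_appr_sub (x : ℤ_[p]) (k : ℕ) :
    ‖((x.appr k : ℤ) : ℤ_[p]) - x‖ ≤ (p : ℝ) ^ (-k : ℤ) := by
  rw [Int.cast_natCast, norm_sub_rev, PadicInt.norm_le_pow_iff_mem_span_pow]
  exact PadicInt.appr_spec k x

section Free

variable {H : Type*} [AddCommGroup H] {d : ℕ}

/-- `y` is a multiple of `p ^ k`. -/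
def Deep (p k : ℕ) (y : H) : Prop := ∃ x, p ^ k • x = y

theorem Deep.add {k : ℕ} {y z : H} : Deep p k y → Deep p k z → Deep p k (y + z) := by
  rintro ⟨a, rfl⟩ ⟨b, rfl⟩
  exact ⟨a + b, nsmul_add _ _ _⟩

theorem Deep.sub {k : ℕ} {y z : H} : Deep p k y → Deep p k z → Deep p k (y - z) := by
  rintro ⟨a, rfl⟩ ⟨b, rfl⟩
  exact ⟨a - b, nsmul_sub _ _ _⟩

theorem Deep.mono {k l : ℕ} (hkl : k ≤ l) {y : H} : Deep p l y → Deep p k y := by
  rintro ⟨a, rfl⟩
  exact ⟨p ^ (l - k) • a, by rw [← mul_nsmul', ← pow_add, Nat.add_sub_cancel' hkl]⟩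

/-- The integral combination of the `g i`. -/
def comb (g : Fin d → H) : (Fin d → ℤ) →+ H :=
  AddMonoidHom.mk' (fun c => ∑ i, c i • g i) fun a b => by
    simp only [Pi.add_apply, add_zsmul, Finset.sum_add_distrib]

theorem comb_apply (g : Fin d → H) (c : Fin d → ℤ) : comb g c = ∑ i, c i • g i := rfl

theorem deep_comb_of_dvd (g : Fin d → H) {k : ℕ} {c : Fin d → ℤ}
    (h : ∀ i, (p : ℤ) ^ k ∣ c i) : Deep p k (comb g c) := by
  choose q hq using h
  refine ⟨comb g q, ?_⟩
  rw [← map_nsmul]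
  congr 1
  funext i
  rw [Pi.smul_apply, nsmul_eq_mul, Nat.cast_pow, hq i]

/-- A basis of a group killed by `p` of order `p ^ d`. -/
theorem exists_basis_of_killed {Q : Type*} [AddCommGroup Q] (hpQ : ∀ q : Q, p • q = 0)
    (hcard : Nat.card Q = p ^ d) :
    ∃ b : Fin d → Q, (∀ q, ∃ c : Fin d → ℤ, q = ∑ i, c i • b i) ∧
      ∀ c : Fin d → ℤ, ∑ i, c i • b i = 0 → ∀ i, (p : ℤ) ∣ c i := by
  have : Module (ZMod p) Q := AddCommGroup.zmodModule hpQ
  have : Finite Q := Nat.finite_of_card_ne_zero (hcard ▸ pow_ne_zero d hp.out.ne_zero)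
  have : Module.Finite (ZMod p) Q := Module.Finite.of_finite
  have hfr : Module.finrank (ZMod p) Q = d := by
    have := Module.natCard_eq_pow_finrank (K := ZMod p) (V := Q)
    rw [hcard, Nat.card_zmod] at this
    exact (Nat.pow_right_injective hp.out.two_le this).symm
  let b := Module.finBasisOfFinrankEq (ZMod p) Q hfr
  refine ⟨fun i => b i, fun q => ⟨fun i => ((b.repr q i).val : ℤ), ?_⟩, fun c hc i => ?_⟩
  · simp only [← Int.cast_smul_eq_zsmul (ZMod p), Int.cast_natCast, ZMod.natCast_zmod_val]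
    exact (b.sum_repr q).symm
  · simp only [← Int.cast_smul_eq_zsmul (ZMod p)] at hc
    rw [← ZMod.intCast_zmod_eq_zero_iff_dvd]
    exact Fintype.linearIndependent_iff.1 b.linearIndependent _ hc i

/-- A basis modulo `p`. -/
theorem exists_basis_mod (hidx : mulIndex H p = p ^ d) :
    ∃ g : Fin d → H, (∀ h, ∃ c : Fin d → ℤ, Deep p 1 (h - comb g c)) ∧
      ∀ c : Fin d → ℤ, Deep p 1 (comb g c) → ∀ i, (p : ℤ) ∣ c i := by
  obtain ⟨b, hb1, hb2⟩ := exists_basis_of_killed (Q := H ⧸ (mulBy H p).range) (fun q => by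
    obtain ⟨h, rfl⟩ := QuotientAddGroup.mk_surjective q
    rw [← QuotientAddGroup.mk_nsmul]
    exact (QuotientAddGroup.eq_zero_iff _).2 ⟨h, rfl⟩) hidx
  choose g hg using fun i => QuotientAddGroup.mk_surjective (b i)
  have hdeep : ∀ y : H, Deep p 1 y ↔
      (QuotientAddGroup.mk y : H ⧸ (mulBy H p).range) = 0 := fun y => by
    rw [QuotientAddGroup.eq_zero_iff, Deep, pow_one]
    exact Iff.rfl
  have hmk : ∀ c : Fin d → ℤ,
      (QuotientAddGroup.mk (comb g c) : H ⧸ (mulBy H p).range) = ∑ i, c i • b i := fun c => by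
    rw [comb_apply, QuotientAddGroup.mk_sum]
    refine Finset.sum_congr rfl fun i _ => ?_
    rw [QuotientAddGroup.mk_zsmul, hg]
  refine ⟨g, fun h => ?_, fun c hc => hb2 c ((hmk c).symm.trans ((hdeep _).1 hc))⟩
  obtain ⟨c, hc⟩ := hb1 (QuotientAddGroup.mk h)
  exact ⟨c, by rw [hdeep, QuotientAddGroup.mk_sub, hmk, hc, sub_self]⟩

/-- **A separated complete `p`-torsion-free group with `[H : pH] = p ^ d` is `ℤ_p ^ d`.** -/
theorem equiv_padic_of_complete (htf : ∀ h : H, p • h = 0 → h = 0)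
    (hsep : ∀ h : H, (∀ k, Deep p k h) → h = 0)
    (hcomp : ∀ s : ℕ → H, (∀ k l, k ≤ l → Deep p k (s l - s k)) →
      ∃ h, ∀ k, Deep p k (h - s k))
    (hidx : mulIndex H p = p ^ d) : Nonempty (H ≃+ (Fin d → ℤ_[p])) := by
  obtain ⟨g, hspan, hindep⟩ := exists_basis_mod hidx
  have hdvd : ∀ (k : ℕ) (c : Fin d → ℤ), Deep p k (comb g c) → ∀ i, (p : ℤ) ^ k ∣ c i := by
    intro k
    induction k with
    | zero => simp
    | succ k ih =>
      rintro c ⟨x, hx⟩ i
      choose q hq using hindep c ⟨p ^ k • x, by rw [← mul_nsmul', pow_one, ← pow_succ', hx]⟩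
      have hc : c = p • q := funext fun j => by rw [Pi.smul_apply, nsmul_eq_mul, hq j]
      rw [hq i, pow_succ']
      refine mul_dvd_mul_left _ (ih q ⟨x, ?_⟩ i)
      refine sub_eq_zero.1 (htf _ ?_)
      rw [nsmul_sub, ← mul_nsmul', ← pow_succ', hx, hc, map_nsmul, sub_self]
  let Near : H → (Fin d → ℤ_[p]) → Prop := fun h a => ∀ (k : ℕ) (j : Fin d → ℤ),
    (∀ i, ‖(j i : ℤ_[p]) - a i‖ ≤ (p : ℝ) ^ (-k : ℤ)) → Deep p k (h - comb g j)
  have nearOf : ∀ h a, (∀ k : ℕ, ∃ j : Fin d → ℤ, (∀ i, ‖(j i : ℤ_[p]) - a i‖ ≤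
      (p : ℝ) ^ (-k : ℤ)) ∧ Deep p k (h - comb g j)) → Near h a := fun h a H' k j hj => by
    obtain ⟨i, hi, hiP⟩ := H' k
    rw [show h - comb g j = (h - comb g i) + comb g (i - j) by rw [map_sub]; abel]
    refine hiP.add (deep_comb_of_dvd g fun t => ?_)
    rw [← PadicInt.norm_int_le_pow_iff_dvd, Pi.sub_apply, Int.cast_sub,
      show (i t : ℤ_[p]) - j t = (i t - a t) + -((j t : ℤ_[p]) - a t) by ring]
    exact (PadicInt.nonarchimedean _ _).trans (max_le (hi t) (by rw [norm_neg]; exact hj t))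
  have uniq : ∀ h a a', Near h a → Near h a' → a = a' := fun h a a' ha ha' => funext fun t =>
    PadicInt.ext_of_toZModPow.1 fun k => by
      have hd := hdvd k ((fun i => ((a i).appr k : ℤ)) - fun i => ((a' i).appr k : ℤ)) (by
        rw [map_sub, ← sub_sub_sub_cancel_left _ _ h]
        exact (ha' k _ fun i => norm_appr_sub _ k).sub (ha k _ fun i => norm_appr_sub _ k)) t
      rw [show PadicInt.toZModPow k (a t) = (((a t).appr k : ℤ) : ZMod (p ^ k)) by
          rw [Int.cast_natCast]; rfl,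
        show PadicInt.toZModPow k (a' t) = (((a' t).appr k : ℤ) : ZMod (p ^ k)) by
          rw [Int.cast_natCast]; rfl,
        ← sub_eq_zero, ← Int.cast_sub, ZMod.intCast_zmod_eq_zero_iff_dvd, Nat.cast_pow]
      exact hd
  have ex : ∀ h, ∃ a, Near h a := fun h => by
    have hex : ∀ k : ℕ, ∃ j : Fin d → ℤ, Deep p k (h - comb g j) := fun k => by
      induction k with
      | zero => exact ⟨0, h, by simp⟩
      | succ k ih =>
        obtain ⟨j, x, hx⟩ := ih
        obtain ⟨c, y, hy⟩ := hspan x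
        refine ⟨j + p ^ k • c, y, ?_⟩
        rw [pow_one] at hy
        rw [pow_succ, mul_nsmul', hy, nsmul_sub, hx, map_add, map_nsmul]
        abel
    choose j hj using hex
    obtain ⟨a, -, φ, hφ, ha⟩ := isCompact_univ.tendsto_subseq
      (x := fun k i => (j k i : ℤ_[p])) fun _ => Set.mem_univ _
    refine ⟨a, nearOf h a fun k => ?_⟩
    obtain ⟨N, hN⟩ := Metric.tendsto_atTop.1 ha ((p : ℝ) ^ (-k : ℤ))
      (zpow_pos (Nat.cast_pos.2 hp.out.pos) _)
    refine ⟨j (φ (max N k)), fun i => ?_,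
      (hj _).mono ((le_max_right N k).trans (hφ.id_le _))⟩
    have := (dist_le_pi_dist _ _ i).trans (hN (max N k) (le_max_left _ _)).le
    rwa [dist_eq_norm] at this
  choose f hf using ex
  have hadd : ∀ x y, f (x + y) = f x + f y := fun x y => uniq _ _ _ (hf _) <|
    nearOf _ _ fun k => by
      refine ⟨(fun i => ((f x i).appr k : ℤ)) + fun i => ((f y i).appr k : ℤ), fun i => ?_, ?_⟩
      · rw [Pi.add_apply, Pi.add_apply, Int.cast_add, add_sub_add_comm]
        exact (PadicInt.nonarchimedean _ _).trans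
          (max_le (norm_appr_sub _ k) (norm_appr_sub _ k))
      · rw [map_add, add_sub_add_comm]
        exact (hf x k _ fun i => norm_appr_sub _ k).add (hf y k _ fun i => norm_appr_sub _ k)
  refine ⟨AddEquiv.ofBijective (AddMonoidHom.mk' f hadd) ⟨?_, fun a => ?_⟩⟩
  · refine (injective_iff_map_eq_zero _).2 fun h h0 => hsep h fun k => ?_
    have h0' : f h = 0 := h0
    simpa using hf h k 0 fun i => by
      rw [h0']; simp only [Pi.zero_apply, Int.cast_zero, sub_zero, norm_zero]; positivity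
  · obtain ⟨h, hh⟩ := hcomp (fun k => comb g fun i => ((a i).appr k : ℤ)) fun k l hkl => by
      rw [← map_sub]
      refine deep_comb_of_dvd g fun i => ?_
      rw [← PadicInt.norm_int_le_pow_iff_dvd, Pi.sub_apply, Int.cast_sub,
        show (((a i).appr l : ℤ) : ℤ_[p]) - ((a i).appr k : ℤ) =
          ((((a i).appr l : ℤ) : ℤ_[p]) - a i) + -((((a i).appr k : ℤ) : ℤ_[p]) - a i) by ring]
      refine (PadicInt.nonarchimedean _ _).trans
        (max_le ((norm_appr_sub _ l).trans ?_) (by rw [norm_neg]; exact norm_appr_sub _ k))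
      exact zpow_le_zpow_right₀ (Nat.one_le_cast.2 hp.out.one_le) (by omega)
    exact ⟨h, uniq _ _ _ (hf h) (nearOf h a fun k => ⟨_, fun i => norm_appr_sub _ k, hh k⟩)⟩

end Free

section Split

variable {A : Type*} [AddCommGroup A] {d : ℕ}

/-- **Splitting off the torsion.** -/
theorem split_torsion (H : AddSubgroup A) (hN : H.index ≠ 0) (e : H ≃+ (Fin d → ℤ_[p])) :
    Finite (AddCommGroup.torsion A) ∧
      Nonempty (A ≃+ (Fin d → ℤ_[p]) × AddCommGroup.torsion A) := by
  set N := H.index with hNdef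
  have tf : ∀ {n : ℕ}, n ≠ 0 → ∀ h : A, h ∈ H → n • h = 0 → h = 0 := fun {n} hn h hh h0 => by
    have : e (n • (⟨h, hh⟩ : H)) = 0 := by
      rw [show n • (⟨h, hh⟩ : H) = 0 from Subtype.ext h0, map_zero]
    rw [map_nsmul, ← Nat.cast_smul_eq_nsmul ℤ_[p], smul_eq_zero,
      or_iff_right (Nat.cast_ne_zero.2 hn), map_eq_zero_iff e e.injective] at this
    exact congrArg Subtype.val this
  refine ⟨?_, ?_⟩
  · have : Finite (A ⧸ H) := Nat.finite_of_card_ne_zero hN
    refine Finite.of_injective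
      ((QuotientAddGroup.mk' H).comp (AddCommGroup.torsion A).subtype)
      ((injective_iff_map_eq_zero _).2 fun P hP => Subtype.ext ?_)
    obtain ⟨n, hn, hn0⟩ := (isOfFinAddOrder_iff_nsmul_eq_zero).1 P.2
    exact tf hn.ne' _ ((QuotientAddGroup.eq_zero_iff _).1 hP) hn0
  let f : A →+ (Fin d → ℤ_[p]) := e.toAddMonoidHom.comp
    ((nsmulAddMonoidHom N : A →+ A).codRestrict H fun a => H.nsmul_index_mem a)
  have hf : ∀ a, f a = e ⟨N • a, H.nsmul_index_mem a⟩ := fun a => rfl
  have hfH : ∀ h : H, f h = N • e h := fun h => by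
    rw [hf, ← map_nsmul]
    exact congrArg e (Subtype.ext rfl)
  obtain ⟨v, u, hu, hNu⟩ := Nat.exists_eq_pow_mul_and_not_dvd hN p hp.out.ne_one
  have hunit : IsUnit (u : ℤ_[p]) := by
    rw [PadicInt.isUnit_iff]
    exact Padic.norm_natCast_eq_one_iff.2 (hp.out.coprime_iff_not_dvd.2 hu)
  have dec : ∀ c : ℤ_[p], ∃ (j : ℤ) (b : ℤ_[p]), c = j + (p : ℤ_[p]) ^ v * b := fun c => by
    obtain ⟨b, hb⟩ := Ideal.mem_span_singleton.1 (PadicInt.appr_spec v c)
    exact ⟨(c.appr v : ℤ), b, by rw [Int.cast_natCast, ← hb, add_sub_cancel]⟩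
  have hscale : ∀ w : Fin d → ℤ_[p], N • w ∈ f.range := fun w =>
    ⟨(e.symm w : A), by rw [hfH, e.apply_symm_apply]⟩
  let R : Submodule ℤ_[p] (Fin d → ℤ_[p]) :=
    { carrier := f.range
      zero_mem' := f.range.zero_mem
      add_mem' := f.range.add_mem
      smul_mem' := fun c x hx => by
        obtain ⟨j, b, hc⟩ := dec c
        rw [hc, add_smul, Int.cast_smul_eq_zsmul,
          show (p : ℤ_[p]) ^ v * b = (N : ℤ_[p]) * ((hunit.unit⁻¹ : ℤ_[p]ˣ) * b) by
            rw [hNu, Nat.cast_mul, Nat.cast_pow, mul_assoc, ← mul_assoc (u : ℤ_[p]),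
              IsUnit.mul_val_inv, one_mul],
          mul_smul, Nat.cast_smul_eq_nsmul]
        exact f.range.add_mem (f.range.zsmul_mem hx j) (hscale _) }
  obtain ⟨n, bR⟩ := Submodule.basisOfPid (Pi.basisFun ℤ_[p] (Fin d)) R
  have hn : n = d := by
    have h1 : Module.finrank ℤ_[p] R = n := by
      rw [Module.finrank_eq_card_basis bR, Fintype.card_fin]
    have h2 := Submodule.finrank_le R
    rw [h1, Module.finrank_fin_fun] at h2
    refine le_antisymm h2 ?_
    let L : (Fin d → ℤ_[p]) →ₗ[ℤ_[p]] R :=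
      LinearMap.codRestrict R ((N : ℤ_[p]) • LinearMap.id) fun w => by
        show (N : ℤ_[p]) • w ∈ f.range
        rw [Nat.cast_smul_eq_nsmul]
        exact hscale w
    have hL : Function.Injective L := fun a b h => by
      have h' : (N : ℤ_[p]) • a = (N : ℤ_[p]) • b := congrArg Subtype.val h
      exact smul_right_injective _ (Nat.cast_ne_zero.2 hN) h'
    have := LinearMap.finrank_le_finrank_of_injective hL
    rwa [h1, Module.finrank_fin_fun] at this
  subst hn
  have hfR : ∀ a, f a ∈ R := fun a => AddMonoidHom.mem_range.2 ⟨a, rfl⟩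
  let g : A →+ (Fin n → ℤ_[p]) :=
    bR.equivFun.toAddEquiv.toAddMonoidHom.comp (f.codRestrict R.toAddSubgroup hfR)
  have hg : ∀ a, g a = bR.equivFun ⟨f a, hfR a⟩ := fun a => rfl
  have hker : ∀ a, g a = 0 ↔ a ∈ AddCommGroup.torsion A := fun a => by
    rw [hg, LinearEquiv.map_eq_zero_iff, Submodule.mk_eq_zero, hf, map_eq_zero_iff e e.injective]
    refine ⟨fun h => isOfFinAddOrder_iff_nsmul_eq_zero.2
      ⟨N, Nat.pos_of_ne_zero hN, congrArg Subtype.val h⟩, fun h => Subtype.ext ?_⟩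
    obtain ⟨m, hm, hm0⟩ := isOfFinAddOrder_iff_nsmul_eq_zero.1 h
    exact tf hm.ne' _ (H.nsmul_index_mem a) (by rw [smul_comm, hm0, nsmul_zero])
  have hlift : ∀ i, ∃ P : A, f P = bR i ∧ p ^ v • P ∈ H := fun i => by
    obtain ⟨P, hP⟩ := (bR i).2
    obtain ⟨x, t, hxt⟩ : IsCoprime (u : ℤ) ((p ^ v : ℕ) : ℤ) :=
      Nat.isCoprime_iff_coprime.2 ((hp.out.coprime_iff_not_dvd.2 hu).symm.pow_right v)
    let c : ℤ_[p] := (t : ℤ_[p]) * (hunit.unit⁻¹ : ℤ_[p]ˣ)
    refine ⟨(x * u) • P + (e.symm (c • f P) : A), ?_, ?_⟩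
    · rw [map_add, map_zsmul, hfH, e.apply_symm_apply, ← hP, ← Nat.cast_smul_eq_nsmul ℤ_[p],
        ← Int.cast_smul_eq_zsmul ℤ_[p], smul_smul, ← add_smul]
      convert one_smul ℤ_[p] (f P) using 2
      have hx1 := congrArg (Int.cast (R := ℤ_[p])) hxt
      push_cast at hx1 ⊢
      simp only [c, hNu, Nat.cast_mul, Nat.cast_pow]
      linear_combination hx1 + ((p : ℤ_[p]) ^ v * t) * hunit.mul_val_inv
    · rw [nsmul_add, smul_comm]
      refine H.add_mem ?_ (H.nsmul_mem (e.symm (c • f P)).2 _)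
      rw [mul_comm x, mul_zsmul', natCast_zsmul, ← mul_nsmul', mul_comm u]
      rw [← hNu]
      exact H.zsmul_mem (H.nsmul_index_mem P) x
  choose P hP hPH using hlift
  let h : Fin n → H := fun i => ⟨p ^ v • P i, hPH i⟩
  let val : (Fin n → ℤ) → (Fin n → ℤ_[p]) → A := fun j b =>
    ∑ i, (j i • P i + (e.symm (b i • e (h i)) : A))
  have hval : ∀ j b, f (val j b) =
      ∑ i, ((j i : ℤ_[p]) + (p : ℤ_[p]) ^ v * b i) • (bR i : Fin n → ℤ_[p]) := fun j b => by
    rw [map_sum]
    refine Finset.sum_congr rfl fun i _ => ?_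
    have he : (p : ℤ_[p]) ^ v • f (P i) = (N : ℤ_[p]) • e (h i) := by
      rw [Nat.cast_smul_eq_nsmul, ← hfH, ← Nat.cast_pow, Nat.cast_smul_eq_nsmul, ← map_nsmul]
    rw [map_add, map_zsmul, hfH, e.apply_symm_apply, ← hP i, add_smul, mul_comm, mul_smul, he,
      Int.cast_smul_eq_zsmul, ← Nat.cast_smul_eq_nsmul ℤ_[p], smul_comm]
  have hwd : ∀ j b j' b', (∀ i, (j i : ℤ_[p]) + (p : ℤ_[p]) ^ v * b i =
      (j' i : ℤ_[p]) + (p : ℤ_[p]) ^ v * b' i) → val j b = val j' b' := fun j b j' b' hjb => by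
    refine Finset.sum_congr rfl fun i _ => ?_
    obtain ⟨q, hq⟩ : (p : ℤ) ^ v ∣ j i - j' i := by
      rw [← PadicInt.norm_int_le_pow_iff_dvd, PadicInt.norm_le_pow_iff_mem_span_pow,
        Ideal.mem_span_singleton]
      exact ⟨b' i - b i, by push_cast; linear_combination hjb i⟩
    have hb : b' i = (q : ℤ_[p]) + b i := by
      refine mul_left_cancel₀ (pow_ne_zero v (Nat.cast_ne_zero.2 hp.out.ne_zero :
        (p : ℤ_[p]) ≠ 0)) ?_
      have hq' := congrArg (Int.cast (R := ℤ_[p])) hq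
      push_cast at hq'
      linear_combination hq' - hjb i
    rw [show j i = j' i + q * (p ^ v : ℕ) by push_cast; linear_combination hq, hb,
      add_smul, add_smul,
      Int.cast_smul_eq_zsmul, map_add, map_zsmul, e.symm_apply_apply, AddSubgroup.coe_add,
      AddSubgroup.coe_zsmul, ← smul_smul, natCast_zsmul, ← add_assoc]
  choose J B hJB using fun c => dec c
  let s : (Fin n → ℤ_[p]) →+ A := AddMonoidHom.mk'
    (fun c => val (fun i => J (c i)) fun i => B (c i)) fun c c' => by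
      rw [hwd (fun i => J ((c + c') i)) (fun i => B ((c + c') i))
        (fun i => J (c i) + J (c' i)) (fun i => B (c i) + B (c' i)) fun i => by
          rw [← hJB, Pi.add_apply]
          push_cast
          linear_combination hJB (c i) + hJB (c' i)]
      simp only [val]
      rw [← Finset.sum_add_distrib]
      refine Finset.sum_congr rfl fun i _ => ?_
      rw [add_zsmul, add_smul, map_add, AddSubgroup.coe_add, add_add_add_comm]
  have hgs : ∀ c, g (s c) = c := fun c => by
    rw [hg, ← LinearEquiv.eq_symm_apply]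
    refine Subtype.ext ((hval _ _).trans ?_)
    rw [bR.equivFun_symm_apply, AddSubmonoidClass.coe_finsetSum]
    refine Finset.sum_congr rfl fun i _ => ?_
    rw [← hJB]
    rfl
  refine ⟨{ toFun := fun a => (g a, ⟨a - s (g a), (hker _).1 (by rw [map_sub, hgs, sub_self])⟩)
            invFun := fun q => s q.1 + q.2
            left_inv := fun a => add_sub_cancel _ _
            right_inv := fun q => ?_
            map_add' := fun a b => ?_ }⟩
  · have h0 : g (q.2 : A) = 0 := (hker _).2 q.2.2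
    refine Prod.ext ?_ (Subtype.ext ?_)
    · show g (s q.1 + q.2) = q.1
      rw [map_add, hgs, h0, add_zero]
    · show s q.1 + q.2 - s (g (s q.1 + q.2)) = q.2
      rw [map_add, hgs, h0, add_zero, add_sub_cancel_left]
  · refine Prod.ext (map_add g a b) (Subtype.ext ?_)
    show a + b - s (g (a + b)) = a - s (g a) + (b - s (g b))
    rw [map_add, map_add]
    abel

end Split

end FA.LocalTorsion
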