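import Fermat.Agent.LocalTorsion.Free
import Fermat.Agent.LocalTorsion.Padic
import Mathlib.Analysis.Normed.Field.Ultra

/-!
# The theorem of Lutz and Mattuck

For a finite extension `K` of `ℚ_p` of degree `d` and an elliptic curve `E` over `K` the group
`E(K)` is the product of `ℤ_p ^ d` with its finite torsion subgroup.
-/

set_option autoImplicit false
set_option linter.unusedSectionVars false

noncomputable section

open Filter Topology WeierstrassCurve FA.EC FA.Local FA.SSDR FA.LocalPts FA.LocalDescent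
open scoped Classical

namespace FA.LocalTorsion

variable (p : ℕ) [hp : Fact p.Prime] {K : Type*} [NormedField K] [NormedAlgebra ℚ_[p] K]
  [FiniteDimensional ℚ_[p] K] [IsUltrametricDist K] [CharZero K] [ProperSpace K]
  {W : WeierstrassCurve K} [W.IsElliptic]
  (hI : IntCoeff (NormedField.valuation (K := K)) W.toAffine)

/-- The kernel of reduction has finite index. -/
theorem e1_index_ne_zero : (e1Subgroup hI).index ≠ 0 :=
  ne_zero_of_dvd_ne_zero (deep_index_ne_zero hI zero_lt_one)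
    (AddSubgroup.index_dvd_of_le (H := deep hI 1 zero_le_one) fun _ hP => hP.1)

include hp in
/-- **A subgroup of finite index isomorphic to `ℤ_p ^ d`.** -/
theorem deep_equiv_padic :
    Nonempty (deep hI ‖(p : K) * p‖ (norm_nonneg _) ≃+
      (Fin (Module.finrank ℚ_[p] K) → ℤ_[p])) := by
  set c : K := (p : K) * p with hc
  have hp0 : (p : K) ≠ 0 := Nat.cast_ne_zero.2 hp.out.ne_zero
  have hc0 : c ≠ 0 := mul_ne_zero hp0 hp0
  have hq0 : 0 < ‖(p : K)‖ := norm_pos_iff.2 hp0
  have hq1 : ‖(p : K)‖ < 1 := by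
    rw [norm_natCast_p p]; exact inv_lt_one_of_one_lt₀ (Nat.one_lt_cast.2 hp.out.one_lt)
  have hr : ‖c‖ < ‖(p : K)‖ := by
    rw [hc, norm_mul]; exact mul_lt_of_lt_one_right hq0 hq1
  set H := deep hI ‖c‖ (norm_nonneg _)
  have hpow : ∀ (k : ℕ) (x : H), ‖par ((p ^ k • x : H) : W.toAffine.Point)‖ =
      ‖(p : K)‖ ^ k * ‖par (x : W.toAffine.Point)‖ := fun k x => by
    induction k with
    | zero => rw [pow_zero, one_nsmul, pow_zero, one_mul]
    | succ k ih =>
      rw [pow_succ', mul_nsmul', AddSubgroup.coe_nsmul,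
        norm_par_nsmul_eq hI (p ^ k • x).2.1 ((p ^ k • x).2.2.trans_lt hr), ih, pow_succ',
        mul_assoc]
  have hdeep : ∀ (k : ℕ) (y : H), Deep p k y ↔
      ‖par (y : W.toAffine.Point)‖ ≤ ‖(p : K)‖ ^ k * ‖c‖ := by
    refine fun k y => ⟨?_, ?_⟩
    · rintro ⟨x, rfl⟩
      rw [hpow]
      exact mul_le_mul_of_nonneg_left x.2.2 (by positivity)
    · induction k generalizing y with
      | zero => exact fun _ => ⟨y, by rw [pow_zero, one_nsmul]⟩
      | succ k ih =>
        intro h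
        rw [pow_succ', mul_assoc] at h
        have hle : ‖(p : K)‖ ^ k * ‖c‖ ≤ ‖c‖ :=
          mul_le_of_le_one_left (norm_nonneg _) (pow_le_one₀ (norm_nonneg _) hq1.le)
        obtain ⟨P, hP, e⟩ := exists_nsmul_eq hI (r := ‖(p : K)‖ ^ k * ‖c‖) (by positivity)
          (n := p) (hle.trans_lt hr) (R := (y : W.toAffine.Point)) ⟨y.2.1, h⟩
        obtain ⟨x, hx⟩ := ih ⟨P, hP.1, hP.2.trans hle⟩ hP.2
        exact ⟨x, Subtype.ext (by rw [pow_succ', mul_nsmul', hx]; exact e)⟩
  refine equiv_padic_of_complete (fun h h0 => ?_) (fun h hh => ?_) (fun s hs => ?_) ?_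
  · have := hpow 1 h
    rw [pow_one, pow_one, h0, ZeroMemClass.coe_zero,
      show par (0 : W.toAffine.Point) = 0 from rfl, norm_zero] at this
    exact Subtype.ext (eq_zero_of_par hI h.2.1
      (norm_eq_zero.1 ((mul_eq_zero.1 this.symm).resolve_left hq0.ne')))
  · refine Subtype.ext (eq_zero_of_par hI h.2.1 (norm_le_zero_iff.1 ?_))
    refine ge_of_tendsto (x := atTop) ?_ (Eventually.of_forall fun k => (hdeep k h).1 (hh k))
    simpa using (tendsto_pow_atTop_nhds_zero_of_lt_one (norm_nonneg _) hq1).mul_const ‖c‖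
  · obtain ⟨z, hz, φ, hφ, hlim⟩ := (isCompact_closedBall (0 : K) ‖c‖).tendsto_subseq
      (x := fun k => par (s k : W.toAffine.Point)) fun k => mem_closedBall_zero_iff.2 (s k).2.2
    rw [mem_closedBall_zero_iff] at hz
    have hz1 : ‖z‖ < 1 := hz.trans_lt (hr.trans hq1)
    obtain ⟨w, hw, hw1⟩ := exists_onCurve hI hz1
    refine ⟨⟨aff W z w, aff_mem_e1 hI hw hz1 hw1, by rw [par_aff hw]; exact hz⟩, fun k => ?_⟩
    rw [hdeep, AddSubgroup.coe_sub, ← norm_par_sub hI (aff_mem_e1 hI hw hz1 hw1) (s k).2.1,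
      par_aff hw, ← dist_eq_norm]
    refine (Metric.isClosed_closedBall.mem_of_tendsto hlim ?_ :
      z ∈ Metric.closedBall (par (s k : W.toAffine.Point)) (‖(p : K)‖ ^ k * ‖c‖))
    filter_upwards [eventually_ge_atTop k] with m hm
    rw [Metric.mem_closedBall, dist_eq_norm, Function.comp_apply,
      norm_par_sub hI (s (φ m)).2.1 (s k).2.1, ← AddSubgroup.coe_sub]
    exact (hdeep k _).1 (hs k (φ m) (hm.trans (hφ.id_le m)))
  · rw [mulIndex_deep hI (norm_pos_iff.2 hc0) hr, ← mulIndex_congr (ballEquiv hc0),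
      mulIndex_intBall p K hp.out.ne_zero, padicValNat.self hp.out.one_lt, mul_one]

include hp in
omit [ProperSpace K] [W.IsElliptic] in
/-- An integral equation by scaling. -/
theorem exists_intCoeff (W : WeierstrassCurve K) :
    ∃ C : VariableChange K, IntCoeff (NormedField.valuation (K := K)) (C • W).toAffine := by
  set M := ‖W.a₁‖ + ‖W.a₂‖ + ‖W.a₃‖ + ‖W.a₄‖ + ‖W.a₆‖
  obtain ⟨n, hn⟩ := pow_unbounded_of_one_lt M (Nat.one_lt_cast.2 hp.out.one_lt : (1 : ℝ) < p)
  set q : K := (p : K) ^ n with hq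
  have hq0 : q ≠ 0 := pow_ne_zero _ (Nat.cast_ne_zero.2 hp.out.ne_zero)
  have hqn : ‖q‖ = ((p : ℝ) ^ n)⁻¹ := by
    rw [hq, norm_pow, ← map_natCast (algebraMap ℚ_[p] K), norm_algebraMap', Padic.norm_p, inv_pow]
  have hq1 : ‖q‖ ≤ 1 := by
    rw [hqn]; exact inv_le_one_of_one_le₀ (one_le_pow₀ (Nat.one_le_cast.2 hp.out.one_le))
  refine ⟨⟨(Units.mk0 q hq0)⁻¹, 0, 0, 0⟩, ?_⟩
  have hle : ∀ {a : K} {k : ℕ}, ‖a‖ ≤ M → k ≠ 0 → ‖q ^ k * a‖ ≤ 1 := fun {a k} ha hk => by
    rw [norm_mul, norm_pow]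
    refine (mul_le_mul_of_nonneg_right (pow_le_of_le_one (norm_nonneg _) hq1 hk)
      (norm_nonneg _)).trans ?_
    rw [hqn, inv_mul_le_iff₀ (pow_pos (Nat.cast_pos.2 hp.out.pos) n), mul_one]
    exact ha.trans hn.le
  have n1 := norm_nonneg W.a₁
  have n2 := norm_nonneg W.a₂
  have n3 := norm_nonneg W.a₃
  have n4 := norm_nonneg W.a₄
  have n6 := norm_nonneg W.a₆
  refine ⟨?_, ?_, ?_, ?_, ?_⟩ <;>
    show ‖(_ : K)‖ ≤ 1 <;>
    simp only [variableChange_a₁, variableChange_a₂, variableChange_a₃, variableChange_a₄,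
      variableChange_a₆, inv_inv, Units.val_mk0, mul_zero, zero_mul, add_zero, sub_zero,
      zero_pow, ne_eq, OfNat.ofNat_ne_zero, not_false_eq_true]
  · rw [← pow_one q]; exact hle (by linarith) one_ne_zero
  · exact hle (by linarith) two_ne_zero
  · exact hle (by linarith) three_ne_zero
  · exact hle (by linarith) four_ne_zero
  · exact hle (by linarith) (by norm_num)

omit hI in
/-- **The theorem of Lutz and Mattuck.** -/
theorem lutz_mattuck (p : ℕ) [hp : Fact p.Prime] {K : Type*} [NormedField K]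
    [NormedAlgebra ℚ_[p] K] [FiniteDimensional ℚ_[p] K] (W : WeierstrassCurve K) [W.IsElliptic] :
    Finite (AddCommGroup.torsion W.toAffine.Point) ∧
      Nonempty (W.toAffine.Point ≃+
        (Fin (Module.finrank ℚ_[p] K) → ℤ_[p]) × AddCommGroup.torsion W.toAffine.Point) := by
  have : CharZero K := charZero_of_injective_algebraMap (algebraMap ℚ_[p] K).injective
  have : ProperSpace K := FiniteDimensional.proper ℚ_[p] K
  have : IsUltrametricDist K :=
    IsUltrametricDist.isUltrametricDist_of_forall_norm_natCast_le_one fun n => by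
      rw [← map_natCast (algebraMap ℚ_[p] K), norm_algebraMap']
      exact IsUltrametricDist.norm_natCast_le_one _ n
  obtain ⟨C, hC⟩ := exists_intCoeff p W
  obtain ⟨e⟩ := deep_equiv_padic p hC
  set f := FA.Frob.vcEquiv C (rfl : C • W = _)
  refine split_torsion ((deep hC ‖(p : K) * p‖ (norm_nonneg _)).map f.toAddMonoidHom) ?_
    ((f.addSubgroupMap _).symm.trans e)
  rw [show ((deep hC ‖(p : K) * p‖ (norm_nonneg _)).map f.toAddMonoidHom).index = _ from
    AddSubgroup.index_map_equiv _ f]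
  exact deep_index_ne_zero hC (norm_pos_iff.2
    (mul_ne_zero (Nat.cast_ne_zero.2 hp.out.ne_zero) (Nat.cast_ne_zero.2 hp.out.ne_zero)))

end FA.LocalTorsion
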